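import Mathlib
import Fermat.Agent.LT.Bianchi
import Fermat.Agent.LT.Base.Residue
import Fermat.Agent.LT.Period.Eis
import Fermat.Agent.LT.Base.Shift

set_option autoImplicit false

/-!
# The quadratic field of a setup and the Eisenstein integers
-/

noncomputable section

open NumberField
open scoped ComplexConjugate

namespace FermatAgent.LT

local notation "Qb" => AlgebraicClosure ℚ
local notation "GQ" => AlgebraicClosure ℚ ≃ₐ[ℚ] AlgebraicClosure ℚ

attribute [local instance] FermatAgent.RT.isGalois_algClosureRat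

namespace Setup

variable (S : Setup)

/-- The cyclotomic character of order three detects the cube roots of unity. -/
theorem modThree_eq_one_iff {ζ : Qb} (hζ : IsPrimitiveRoot ζ 3) (σ : GQ) :
    WeierstrassCurve.modThreeCyclotomicChar σ = 1 ↔ σ ζ = ζ := by
  have : NeZero ((3 : ℕ) : Qb) := ⟨by norm_num⟩
  have hspec := modularCyclotomicCharacter.spec Qb (IsAlgClosed.card_rootsOfUnity_eq Qb 3)
    (σ : Qb ≃+* Qb) (t := ((hζ.toRootsOfUnity : rootsOfUnity 3 Qb) : Qbˣ)) hζ.toRootsOfUnity.2
  change σ ζ = ζ ^ _ at hspec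
  rw [WeierstrassCurve.modThreeCyclotomicChar_apply]
  constructor
  · intro h
    rw [h] at hspec
    simpa [ZMod.val_one] using hspec
  · intro h
    refine Units.ext (ZMod.val_injective 3 ?_)
    rw [Units.val_one, ZMod.val_one]
    refine hζ.pow_inj (ZMod.val_lt _) (by norm_num) ?_
    rw [← hspec, h, pow_one]

theorem mem_K_fixing_iff (σ : GQ) :
    σ ∈ (Matrix.GeneralLinearGroup.det (n := Fin 2) (R := ZMod 3)).ker.comap S.ρ ↔
      WeierstrassCurve.modThreeCyclotomicChar σ = 1 := by
  rw [Subgroup.mem_comap, MonoidHom.mem_ker, S.det_eq]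

theorem K_eq_adjoin {ζ : Qb} (hζ : IsPrimitiveRoot ζ 3) :
    IntermediateField.adjoin ℚ {ζ} = S.K := by
  refine le_antisymm ?_ fun x hx => ?_
  · rw [IntermediateField.adjoin_le_iff, Set.singleton_subset_iff]
    rintro ⟨σ, hσ⟩
    exact (modThree_eq_one_iff hζ σ).1 ((S.mem_K_fixing_iff σ).1 hσ)
  · rw [← InfiniteGalois.fixedField_fixingSubgroup (IntermediateField.adjoin ℚ {ζ})]
    rintro ⟨σ, hσ⟩
    have h : σ ζ = ζ := (IntermediateField.mem_fixingSubgroup_iff _ σ).1 hσ ζ
      (IntermediateField.mem_adjoin_simple_self ℚ ζ)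
    exact hx ⟨σ, (S.mem_K_fixing_iff σ).2 ((modThree_eq_one_iff hζ σ).2 h)⟩

instance instIsCyclotomicK : IsCyclotomicExtension {3} ℚ S.K := by
  have : NeZero ((3 : ℕ) : Qb) := ⟨by norm_num⟩
  obtain ⟨ζ, hζ⟩ := HasEnoughRootsOfUnity.exists_primitiveRoot Qb 3
  rw [← S.K_eq_adjoin hζ]
  exact hζ.intermediateField_adjoin_isCyclotomicExtension ℚ

instance instIsTotallyComplexK : IsTotallyComplex S.K :=
  IsCyclotomicExtension.Rat.isTotallyComplex (n := 3) S.K (by norm_num)

theorem finrank_K : Module.finrank ℚ S.K = 2 := by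
  rw [IsCyclotomicExtension.finrank (n := 3) S.K
    (Polynomial.cyclotomic.irreducible_rat (by norm_num)), Nat.totient_prime Nat.prime_three]

instance instUniquePlace : Unique (InfinitePlace S.K) :=
  have hc : Fintype.card (InfinitePlace S.K) = 1 := by
    have h := IsTotallyComplex.finrank S.K
    rw [S.finrank_K] at h
    rw [InfinitePlace.card_eq_nrRealPlaces_add_nrComplexPlaces,
      IsTotallyComplex.nrRealPlaces_eq_zero]
    omega
  have : Subsingleton (InfinitePlace S.K) := Fintype.card_le_one_iff_subsingleton.mp hc.le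
  uniqueOfSubsingleton (Classical.arbitrary _)

instance instPIDK : IsPrincipalIdealRing (𝓞 S.K) :=
  IsCyclotomicExtension.Rat.three_pid S.K

/-- The complex embedding. -/
def emb : S.K →+* ℂ := (default : InfinitePlace S.K).embedding

theorem embedding_eq (w : InfinitePlace S.K) : w.embedding = S.emb := by
  rw [Subsingleton.elim w default]; rfl

theorem exists_omegaK : ∃ ζ : S.K, IsPrimitiveRoot ζ 3 ∧ S.emb ζ = omega := by
  have hz := IsCyclotomicExtension.zeta_spec 3 ℚ S.K
  set z := IsCyclotomicExtension.zeta 3 ℚ S.K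
  have hx : IsPrimitiveRoot (S.emb z) 3 := hz.map_of_injective S.emb.injective
  have h3 : S.emb z ^ 3 = 1 := hx.pow_eq_one
  have h1 : S.emb z ≠ 1 := hx.ne_one (by norm_num)
  have hq : (S.emb z - omega) * (S.emb z - (-1 - omega)) = 0 := by
    have h : S.emb z ^ 2 + S.emb z + 1 = 0 :=
      (mul_eq_zero.mp (show (S.emb z - 1) * (S.emb z ^ 2 + S.emb z + 1) = 0 by
        linear_combination h3)).resolve_left (sub_ne_zero.mpr h1)
    linear_combination h - Period.omega_sq
  rcases mul_eq_zero.mp hq with h | h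
  · exact ⟨z, hz, sub_eq_zero.mp h⟩
  · refine ⟨z ^ 2, hz.pow_of_coprime 2 (by norm_num), ?_⟩
    rw [map_pow, sub_eq_zero.mp h]
    linear_combination Period.omega_sq

theorem mem_eisInt (x : 𝓞 S.K) : S.emb (x : S.K) ∈ EisInt := by
  obtain ⟨ζ, hζ, hω⟩ := S.exists_omegaK
  have : Fact (Nat.Prime 3) := ⟨Nat.prime_three⟩
  have hI := IsCyclotomicExtension.Rat.isIntegralClosure_adjoin_singleton_of_prime hζ
  obtain ⟨y, hy⟩ := hI.isIntegral_iff.1 x.isIntegral_coe
  rw [show (x : S.K) = (y : S.K) from hy.symm]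
  suffices h : ∀ z ∈ Algebra.adjoin ℤ ({ζ} : Set S.K), S.emb z ∈ EisInt from h _ y.2
  intro z hz
  induction hz using Algebra.adjoin_induction with
  | mem z hz =>
    rw [Set.mem_singleton_iff] at hz
    rw [hz, hω]
    exact Subring.subset_closure rfl
  | algebraMap n => simp
  | add z z' _ _ hz hz' => rw [map_add]; exact add_mem hz hz'
  | mul z z' _ _ hz hz' => rw [map_mul]; exact mul_mem hz hz'

/-- The ring of integers as Eisenstein integers. -/
def toEis : 𝓞 S.K →+* EisInt :=
  (S.emb.comp (algebraMap (𝓞 S.K) S.K)).codRestrict EisInt S.mem_eisInt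

theorem coe_toEis (x : 𝓞 S.K) : (S.toEis x : ℂ) = S.emb (x : S.K) := rfl

theorem toEis_bijective : Function.Bijective S.toEis := by
  refine ⟨fun x y h => RingOfIntegers.coe_injective (S.emb.injective ?_), fun x => ?_⟩
  · rw [← coe_toEis, ← coe_toEis, h]
  · obtain ⟨ζ, hζ, hω⟩ := S.exists_omegaK
    obtain ⟨a, b, rfl⟩ := Period.exists_eq_eis x
    obtain ⟨z, hzω⟩ : ∃ z : 𝓞 S.K, S.emb (z : S.K) = omega :=
      ⟨⟨ζ, hζ.isIntegral (by norm_num)⟩, hω⟩
    refine ⟨(a : 𝓞 S.K) + (b : 𝓞 S.K) * z, Subtype.ext ?_⟩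
    rw [coe_toEis, Period.coe_eis, ← hzω]
    simp

/-- The identification of the integers of `K` with the Eisenstein integers. -/
def eK : EisInt ≃+* 𝓞 S.K := (RingEquiv.ofBijective S.toEis S.toEis_bijective).symm

theorem emb_eK (x : EisInt) : S.emb ((S.eK x : 𝓞 S.K) : S.K) = (x : ℂ) := by
  rw [← coe_toEis]
  exact congrArg Subtype.val ((RingEquiv.ofBijective S.toEis S.toEis_bijective).apply_symm_apply x)

theorem eK_natCast (n : ℕ) : S.eK (n : EisInt) = (n : 𝓞 S.K) := map_natCast _ n

/-- The trace of the complex embedding. -/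
theorem trace_eq_two_re (x : S.K) : (Algebra.trace ℚ S.K x : ℝ) = 2 * (S.emb x).re := by
  have h := pairX_embVec x (1 : S.K)
  rw [mul_one] at h
  rw [← h, pairX, Fintype.sum_unique]
  simp [embVec_apply, emb]

end Setup

/-- `1 + 2 ω`, the square root of `-3`. -/
def deltaE : EisInt := Period.eis 1 2

theorem coe_deltaE : (deltaE : ℂ) = 1 + 2 * omega := by simp [deltaE, Period.coe_eis]

theorem deltaE_sq : deltaE * deltaE = -(3 : ℕ) := by
  refine Subtype.ext ?_
  have h3 : (((3 : ℕ) : EisInt) : ℂ) = 3 := map_natCast EisInt.subtype 3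
  rw [Subring.coe_neg, Subring.coe_mul, coe_deltaE, h3]
  linear_combination 4 * Period.omega_sq

theorem deltaE_ne_zero : deltaE ≠ 0 := fun h => by
  have := deltaE_sq
  rw [h, mul_zero, eq_comm, neg_eq_zero] at this
  exact three_ne_zero (α := ℂ) (by simpa using congrArg Subtype.val this)

theorem prime_deltaE : Prime deltaE :=
  Period.prime_of_normSq Nat.prime_three (by
    rw [deltaE, Period.normSq_eis]; norm_num)

/-- Elements whose traces against `1` and `ω` are integers lie in the inverse different. -/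
theorem mem_eisInt_of_traces {x : ℂ} {A B : ℤ} (hA : 2 * x.re = A)
    (hB : 2 * (x * omega).re = B) : x * (deltaE : ℂ) = (Period.eis (A + B) A : EisInt) := by
  rw [Complex.mul_re, Period.omega_re, Period.omega_im] at hB
  have h3 : Real.sqrt 3 * Real.sqrt 3 = 3 := Real.mul_self_sqrt (by norm_num)
  rw [coe_deltaE, Period.coe_eis]
  apply Complex.ext
  · simp [Period.omega_re, Period.omega_im]
    linarith
  · simp [Period.omega_re, Period.omega_im]
    linear_combination (Real.sqrt 3 / 2) * hA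

end FermatAgent.LT

end
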