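import Mathlib

set_option autoImplicit false
set_option linter.unusedSectionVars false

/-!
# Functions satisfying the recursion of Hecke eigenvalues
-/

noncomputable section

open scoped ComplexConjugate

namespace FermatAgent.LT.Descended

/-- Invariance under units, support prime to `n` and the recursion at each prime not dividing
`n`. -/
structure HeckeRec {R : Type*} [CommRing R] (n : R) (d : R → ℂ) (l : R → ℝ) : Prop where
  zero : d 0 = 0
  unit : ∀ (u : Rˣ) ν, d (u * ν) = d ν
  supp : ∀ ν, ¬ IsCoprime ν n → d ν = 0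
  rec_one : ∀ π, Prime π → IsCoprime π n → ∀ μ, ¬ π ∣ μ → d (π * μ) = l π * d μ
  rec_two : ∀ π, Prime π → IsCoprime π n → ∀ μ, d (π * (π * μ)) = l π * d (π * μ) - d μ

namespace HeckeRec

variable {R : Type*} [CommRing R] [IsDomain R] [IsPrincipalIdealRing R] {n : R} {d : R → ℂ}
  {l : R → ℝ}

theorem rec_one' (h : HeckeRec n d l) {π : R} (hπ : Prime π) (hπn : IsCoprime π n) :
    d π = l π * d 1 := by
  simpa using h.rec_one π hπ hπn 1 hπ.not_dvd_one

theorem exists_factor (h : HeckeRec n d l) :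
    ∀ x : R, ∃ a : ℂ, ∀ ν : R, IsRelPrime x ν → d (x * ν) = a * d ν := by
  intro x
  induction x using UniqueFactorizationMonoid.induction_on_coprime with
  | h0 => exact ⟨0, fun ν _ => by rw [zero_mul, h.zero, zero_mul]⟩
  | h1 hu =>
    obtain ⟨u, rfl⟩ := hu
    exact ⟨1, fun ν _ => by rw [h.unit, one_mul]⟩
  | @hpr p i hp =>
    rcases Nat.eq_zero_or_pos i with rfl | hi
    · exact ⟨1, fun ν _ => by rw [pow_zero, one_mul, one_mul]⟩
    by_cases hpn : IsCoprime p n
    · suffices H : ∀ k, ∃ a a' : ℂ, ∀ ν : R, ¬ p ∣ ν →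
          d (p ^ k * ν) = a * d ν ∧ d (p ^ (k + 1) * ν) = a' * d ν by
        obtain ⟨a, _, ha⟩ := H i
        exact ⟨a, fun ν hν => (ha ν fun hd => hp.not_isUnit (hν (dvd_pow_self p hi.ne') hd)).1⟩
      intro k
      induction k with
      | zero =>
        refine ⟨1, l p, fun ν hν => ⟨by simp, ?_⟩⟩
        rw [zero_add, pow_one, h.rec_one p hp hpn ν hν]
      | succ k ih =>
        obtain ⟨a, a', ha⟩ := ih
        refine ⟨a', l p * a' - a, fun ν hν => ⟨(ha ν hν).2, ?_⟩⟩
        rw [show p ^ (k + 1 + 1) * ν = p * (p * (p ^ k * ν)) by ring, h.rec_two p hp hpn,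
          show p * (p ^ k * ν) = p ^ (k + 1) * ν by ring, (ha ν hν).1, (ha ν hν).2]
        ring
    · refine ⟨0, fun ν _ => ?_⟩
      rw [zero_mul, h.supp]
      exact fun hc => hpn (hc.of_isCoprime_of_dvd_left ((dvd_pow_self p hi.ne').mul_right ν))
  | @hcp x y hxy ihx ihy =>
    obtain ⟨a, ha⟩ := ihx
    obtain ⟨a', ha'⟩ := ihy
    refine ⟨a * a', fun ν hν => ?_⟩
    rw [mul_assoc, ha (y * ν) (hxy.mul_right fun c hc hc' => hν (hc.mul_right y) hc'),
      ha' ν (fun c hc hc' => hν (hc.mul_left x) hc'), mul_assoc]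

theorem eq_zero_of_one (h : HeckeRec n d l) (h1 : d 1 = 0) (x : R) : d x = 0 := by
  obtain ⟨a, ha⟩ := h.exists_factor x
  have := ha 1 isRelPrime_one_right
  rwa [mul_one, h1, mul_zero] at this

/-- The key identity. -/
theorem mul_eq (h : HeckeRec n d l) {x ν : R} (hxν : IsRelPrime x ν) :
    d (x * ν) * d 1 = d x * d ν := by
  obtain ⟨a, ha⟩ := h.exists_factor x
  have hx := ha 1 isRelPrime_one_right
  rw [mul_one] at hx
  rw [ha ν hxν, hx]
  ring

theorem one_ne_zero (h : HeckeRec n d l) {x : R} (hx : d x ≠ 0) : d 1 ≠ 0 :=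
  fun h1 => hx (h.eq_zero_of_one h1 x)

theorem normalised_mul (h : HeckeRec n d l) (h1 : d 1 ≠ 0) {x ν : R} (hxν : IsCoprime x ν) :
    d (x * ν) / d 1 = d x / d 1 * (d ν / d 1) := by
  have := h.mul_eq hxν.isRelPrime
  field_simp
  linear_combination this

theorem normalised_real (h : HeckeRec n d l) (h1 : d 1 ≠ 0) :
    ∀ x : R, conj (d x / d 1) = d x / d 1 := by
  intro x
  induction x using UniqueFactorizationMonoid.induction_on_coprime with
  | h0 => simp [h.zero]
  | h1 hu =>
    obtain ⟨u, rfl⟩ := hu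
    rw [show d (u : R) = d 1 by simpa using h.unit u 1, div_self h1, map_one]
  | @hpr p i hp =>
    by_cases hpn : IsCoprime p n
    · suffices H : ∀ k, conj (d (p ^ k) / d 1) = d (p ^ k) / d 1 ∧
          conj (d (p ^ (k + 1)) / d 1) = d (p ^ (k + 1)) / d 1 from (H i).1
      intro k
      induction k with
      | zero =>
        refine ⟨by simp [h1], ?_⟩
        rw [zero_add, pow_one, h.rec_one' hp hpn, mul_div_assoc, div_self h1, mul_one,
          Complex.conj_ofReal]
      | succ k ih =>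
        refine ⟨ih.2, ?_⟩
        rw [show p ^ (k + 1 + 1) = p * (p * p ^ k) by ring, h.rec_two p hp hpn,
          show p * p ^ k = p ^ (k + 1) by ring, sub_div, mul_div_assoc, map_sub, map_mul,
          Complex.conj_ofReal, ih.1, ih.2]
    · rcases Nat.eq_zero_or_pos i with rfl | hi
      · simp [h1]
      rw [h.supp (p ^ i) (fun hc => hpn (hc.of_isCoprime_of_dvd_left (dvd_pow_self p hi.ne'))),
        zero_div, map_zero]
  | @hcp x y hxy ihx ihy =>
    have hc : IsCoprime x y := hxy.isCoprime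
    rw [h.normalised_mul h1 hc, map_mul, ihx, ihy]

end HeckeRec

end FermatAgent.LT.Descended

end
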