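import Mathlib
import Fermat.Agent.LT.MultOne.Coeff
import Fermat.Agent.LT.Base.Cosets

set_option autoImplicit false

/-!
# Integral adelic matrices and their residues modulo an integer
-/

noncomputable section

open NumberField IsDedekindDomain WithZero Filter

namespace FermatAgent.LT.Descended

open FermatAgent.LT

variable {K : Type*} [Field K] [NumberField K]

/-- The exponents of `n`. -/
def nExp (n : 𝓞 K) (v : HeightOneSpectrum (𝓞 K)) : ℕ := (-log (v.intValuation n)).toNat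

variable {n : 𝓞 K}

theorem valued_nExp (hn : n ≠ 0) (v : HeightOneSpectrum (𝓞 K)) :
    v.intValuation n = exp (-(nExp n v : ℤ)) := by
  have h0 := v.intValuation_ne_zero n hn
  have hle : log (v.intValuation n) ≤ 0 := by
    rw [← exp_le_exp, exp_log h0, exp_zero]
    exact v.intValuation_le_one n
  rw [nExp, Int.toNat_of_nonneg (by omega), neg_neg, exp_log h0]

theorem le_nExp_iff (hn : n ≠ 0) (v : HeightOneSpectrum (𝓞 K)) (k : ℕ) :
    k ≤ nExp n v ↔ n ∈ v.asIdeal ^ k := by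
  rw [← v.intValuation_le_pow_iff_mem, valued_nExp hn, exp_le_exp]
  omega

theorem nExp_eq_zero_iff (hn : n ≠ 0) (v : HeightOneSpectrum (𝓞 K)) :
    nExp n v = 0 ↔ n ∉ v.asIdeal := by
  have h := le_nExp_iff hn v 1
  rw [pow_one] at h
  rw [← h]
  omega

theorem eventually_nExp (hn : n ≠ 0) : ∀ᶠ v in cofinite, nExp n v = 0 := by
  rw [eventually_cofinite]
  refine (Ideal.finite_factors (I := Ideal.span {n}) (by simpa using hn)).subset fun v hv => ?_
  rw [Set.mem_ofPred_eq, nExp_eq_zero_iff hn, not_not] at hv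
  exact Ideal.dvd_iff_le.mpr ((Ideal.span_singleton_le_iff_mem _).mpr hv)

theorem rat_small_iff (hn : n ≠ 0) (d : 𝓞 K) :
    algebraMap K (Adf K) (d : K) ∈ smallAdeles (nExp n) ↔ n ∣ d := by
  have hval : ∀ (o : 𝓞 K) (v : HeightOneSpectrum (𝓞 K)),
      Valued.v (loc v (o : K)) = v.intValuation o := fun o v => by
    rw [valued_loc, HeightOneSpectrum.valuation_of_algebraMap]
  constructor
  · intro h
    obtain ⟨q, hq⟩ := HeightOneSpectrum.mem_integers_of_valuation_le_one K ((d : K) / (n : K))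
      fun v => by
        have hv := h v
        rw [adele_algebraMap_apply, hval] at hv
        rw [map_div₀, HeightOneSpectrum.valuation_of_algebraMap,
          HeightOneSpectrum.valuation_of_algebraMap, valued_nExp hn]
        exact div_le_one_of_le₀ hv zero_le
    refine ⟨q, RingOfIntegers.coe_injective ?_⟩
    have hn0 : (n : K) ≠ 0 := RingOfIntegers.coe_ne_zero_iff.mpr hn
    rw [map_mul, hq]
    field_simp
  · rintro ⟨q, rfl⟩ v
    rw [adele_algebraMap_apply, hval, map_mul, valued_nExp hn]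
    exact mul_le_of_le_one_right' (v.intValuation_le_one q)

theorem rat_int_small (o : 𝓞 K) :
    algebraMap K (Adf K) (o : K) ∈ smallAdeles (0 : HeightOneSpectrum (𝓞 K) → ℕ) := fun v => by
  rw [adele_algebraMap_apply, valued_loc, HeightOneSpectrum.valuation_of_algebraMap]
  simpa using v.intValuation_le_one o

variable (n) in
/-- The integral adele `x` reduces to `r` modulo `n`. -/
def RedA (x : Adf K) (r : 𝓞 K ⧸ Ideal.span {n}) : Prop :=
  ∀ o : 𝓞 K, Ideal.Quotient.mk _ o = r → x - algebraMap K (Adf K) (o : K) ∈ smallAdeles (nExp n)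

theorem RedA.of_rep (hn : n ≠ 0) {x : Adf K} {o : 𝓞 K}
    (h : x - algebraMap K (Adf K) (o : K) ∈ smallAdeles (nExp n)) :
    RedA n x (Ideal.Quotient.mk _ o) := by
  intro o' ho'
  have hd : algebraMap K (Adf K) ((o - o' : 𝓞 K) : K) ∈ smallAdeles (nExp n) :=
    (rat_small_iff hn _).mpr (Ideal.mem_span_singleton.mp ((Ideal.Quotient.eq).mp ho'.symm))
  convert add_mem h hd using 1
  push_cast
  ring

theorem redA_rat (hn : n ≠ 0) (o : 𝓞 K) :
    RedA n (algebraMap K (Adf K) (o : K)) (Ideal.Quotient.mk _ o) :=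
  RedA.of_rep hn (by rw [sub_self]; exact zero_mem _)

theorem RedA.integral {x : Adf K} {r : 𝓞 K ⧸ Ideal.span {n}} (h : RedA n x r) :
    x ∈ smallAdeles (0 : HeightOneSpectrum (𝓞 K) → ℕ) := by
  obtain ⟨o, rfl⟩ := Ideal.Quotient.mk_surjective r
  simpa using add_mem (smallAdeles_anti (e := 0) (fun v => Nat.zero_le (nExp n v)) (h o rfl))
    (rat_int_small o)

theorem RedA.add {x y : Adf K} {r s : 𝓞 K ⧸ Ideal.span {n}} (hn : n ≠ 0) (hx : RedA n x r)
    (hy : RedA n y s) : RedA n (x + y) (r + s) := by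
  obtain ⟨a, rfl⟩ := Ideal.Quotient.mk_surjective r
  obtain ⟨c, rfl⟩ := Ideal.Quotient.mk_surjective s
  rw [← map_add]
  refine RedA.of_rep hn ?_
  convert add_mem (hx a rfl) (hy c rfl) using 1
  push_cast
  ring

theorem RedA.mul {x y : Adf K} {r s : 𝓞 K ⧸ Ideal.span {n}} (hn : n ≠ 0) (hx : RedA n x r)
    (hy : RedA n y s) : RedA n (x * y) (r * s) := by
  obtain ⟨a, rfl⟩ := Ideal.Quotient.mk_surjective r
  obtain ⟨c, rfl⟩ := Ideal.Quotient.mk_surjective s
  rw [← map_mul]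
  refine RedA.of_rep hn ?_
  convert add_mem (mul_mem_smallAdeles (hx a rfl) hy.integral)
    (mul_mem_smallAdeles (hy c rfl) (rat_int_small a)) using 1
  push_cast
  ring

theorem redA_zero (hn : n ≠ 0) : RedA n (0 : Adf K) 0 := by
  simpa using redA_rat hn (0 : 𝓞 K)

theorem redA_one (hn : n ≠ 0) : RedA n (1 : Adf K) 1 := by
  simpa using redA_rat hn (1 : 𝓞 K)

theorem RedA.unique {x : Adf K} {r s : 𝓞 K ⧸ Ideal.span {n}} (hn : n ≠ 0) (hr : RedA n x r)
    (hs : RedA n x s) : r = s := by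
  obtain ⟨a, rfl⟩ := Ideal.Quotient.mk_surjective r
  obtain ⟨c, rfl⟩ := Ideal.Quotient.mk_surjective s
  rw [Ideal.Quotient.eq, Ideal.mem_span_singleton, ← rat_small_iff hn]
  convert sub_mem (hs c rfl) (hr a rfl) using 1
  push_cast
  ring

theorem RedA.sub_small {x y : Adf K} {r : 𝓞 K ⧸ Ideal.span {n}} (hx : RedA n x r)
    (hy : RedA n y r) : x - y ∈ smallAdeles (nExp n) := by
  obtain ⟨o, rfl⟩ := Ideal.Quotient.mk_surjective r
  simpa using sub_mem (hx o rfl) (hy o rfl)

theorem exists_redA (hn : n ≠ 0) {x : Adf K}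
    (hx : x ∈ smallAdeles (0 : HeightOneSpectrum (𝓞 K) → ℕ)) : ∃ r, RedA n x r := by
  obtain ⟨b, hb⟩ := exists_rat_near x (nExp n) (eventually_nExp hn)
  obtain ⟨o, rfl⟩ := exists_int_of_small_zero (b := b) (by
    simpa using sub_mem hx (smallAdeles_anti (fun v => Nat.zero_le (nExp n v)) hb))
  exact ⟨_, RedA.of_rep hn hb⟩

variable (n) in
/-- The adele equal to `o` at the divisors of `n` and to `c` elsewhere. -/
def crt (hn : n ≠ 0) (o : 𝓞 K) (c : ℕ) : Adf K :=
  ⟨fun v => if nExp n v = 0 then (c : v.adicCompletion K) else loc v (o : K), by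
    filter_upwards [eventually_nExp hn] with v hv
    rw [if_pos hv]
    exact natCast_mem (v.adicCompletionIntegers K) c⟩

theorem crt_apply (hn : n ≠ 0) (o : 𝓞 K) (c : ℕ) (v : HeightOneSpectrum (𝓞 K)) :
    crt n hn o c v = if nExp n v = 0 then (c : v.adicCompletion K) else loc v (o : K) := rfl

theorem valued_natCast_le (v : HeightOneSpectrum (𝓞 K)) (c : ℕ) :
    Valued.v ((c : v.adicCompletion K)) ≤ 1 :=
  (HeightOneSpectrum.mem_adicCompletionIntegers (𝓞 K) K v).mp
    (natCast_mem (v.adicCompletionIntegers K) c)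

theorem redA_crt (hn : n ≠ 0) (o : 𝓞 K) (c : ℕ) : RedA n (crt n hn o c) (Ideal.Quotient.mk _ o) := by
  refine RedA.of_rep hn fun v => ?_
  rw [adele_sub_apply, adele_algebraMap_apply, crt_apply]
  split_ifs with h
  · rw [h]
    refine (Valuation.map_sub _ _ _).trans (max_le ((valued_natCast_le v c).trans (by simp)) ?_)
    rw [valued_loc, HeightOneSpectrum.valuation_of_algebraMap]
    simpa using v.intValuation_le_one o
  · rw [sub_self, map_zero]; exact zero_le

/-- Everywhere integral with integral inverse. -/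
def IsUnitId (a : (Adf K)ˣ) : Prop :=
  ∀ v : HeightOneSpectrum (𝓞 K), Valued.v ((a : Adf K) v) = 1

theorem IsUnitId.integral {a : (Adf K)ˣ} (h : IsUnitId a) :
    (a : Adf K) ∈ smallAdeles (0 : HeightOneSpectrum (𝓞 K) → ℕ) := fun v => by simp [h v]

theorem IsUnitId.inv {a : (Adf K)ˣ} (h : IsUnitId a) : IsUnitId a⁻¹ := fun v => by
  have h1 : ((a⁻¹ : (Adf K)ˣ) : Adf K) v * (a : Adf K) v = 1 := by
    rw [← adele_mul_apply, Units.inv_mul, adele_one_apply]
  have h2 := congrArg Valued.v h1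
  rwa [map_mul, map_one, h v, mul_one] at h2

theorem IsUnitId.mul {a c : (Adf K)ˣ} (h : IsUnitId a) (h' : IsUnitId c) : IsUnitId (a * c) :=
  fun v => by rw [Units.val_mul, adele_mul_apply, map_mul, h v, h' v, one_mul]

theorem exists_unitId (hn : n ≠ 0) (r : (𝓞 K ⧸ Ideal.span {n})ˣ) :
    ∃ a : (Adf K)ˣ, IsUnitId a ∧ RedA n (a : Adf K) r ∧
      ∀ v : HeightOneSpectrum (𝓞 K), nExp n v = 0 → (a : Adf K) v = 1 := by
  obtain ⟨o, ho⟩ := Ideal.Quotient.mk_surjective (r : 𝓞 K ⧸ Ideal.span {n})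
  obtain ⟨o', ho'⟩ := Ideal.Quotient.mk_surjective ((r⁻¹ : (𝓞 K ⧸ Ideal.span {n})ˣ) :
    𝓞 K ⧸ Ideal.span {n})
  have hv : ∀ v, Valued.v (crt n hn o 1 v) = 1 := fun v => by
    rw [crt_apply]
    split_ifs with h
    · simp
    · rw [valued_loc, HeightOneSpectrum.valuation_of_algebraMap,
        HeightOneSpectrum.intValuation_eq_one_iff]
      intro hmem
      have h1 : o * o' - 1 ∈ Ideal.span {n} := by
        rw [← Ideal.Quotient.eq_zero_iff_mem, map_sub, map_mul, map_one, ho, ho', Units.mul_inv,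
          sub_self]
      have hn' : n ∈ v.asIdeal := by
        rwa [nExp_eq_zero_iff hn, not_not] at h
      have h2 := sub_mem (v.asIdeal.mul_mem_right o' hmem)
        ((Ideal.span_singleton_le_iff_mem v.asIdeal).mpr hn' h1)
      rw [sub_sub_cancel] at h2
      exact v.isPrime.ne_top ((Ideal.eq_top_iff_one _).mpr h2)
  have hu : IsUnit (crt n hn o 1) :=
    FiniteAdeleRing.isUnit_iff.mpr ⟨fun v h0 => by simpa [h0] using hv v,
      Eventually.of_forall fun v => hv v⟩
  exact ⟨hu.unit, hv, ho ▸ redA_crt hn o 1,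
    fun v hev => by rw [IsUnit.unit_spec, crt_apply, if_pos hev, Nat.cast_one]⟩

/-- Integral matrices with integral inverse. -/
def IsIntGL (g : GAf K) : Prop := IsNearOne (0 : HeightOneSpectrum (𝓞 K) → ℕ) g

theorem IsIntGL.inv {g : GAf K} (h : IsIntGL g) : IsIntGL g⁻¹ := ⟨h.2, by rw [inv_inv]; exact h.1⟩

theorem IsIntGL.entry {g : GAf K} (h : IsIntGL g) (i j : Fin 2) :
    g i j ∈ smallAdeles (0 : HeightOneSpectrum (𝓞 K) → ℕ) := by
  have h2 : (1 : Matrix (Fin 2) (Fin 2) (Adf K)) i j ∈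
      smallAdeles (0 : HeightOneSpectrum (𝓞 K) → ℕ) := by
    rw [Matrix.one_apply]
    split_ifs
    exacts [one_mem_smallAdeles_zero, zero_mem _]
  simpa using add_mem (h.1 i j) h2

theorem isIntGL_of_entries {g : GAf K}
    (h : ∀ i j, g i j ∈ smallAdeles (0 : HeightOneSpectrum (𝓞 K) → ℕ))
    (h' : ∀ i j, ((g⁻¹ : GAf K) i j) ∈ smallAdeles (0 : HeightOneSpectrum (𝓞 K) → ℕ)) :
    IsIntGL g := by
  have h2 : ∀ i j, (1 : Matrix (Fin 2) (Fin 2) (Adf K)) i j ∈
      smallAdeles (0 : HeightOneSpectrum (𝓞 K) → ℕ) := fun i j => by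
    rw [Matrix.one_apply]
    split_ifs
    exacts [one_mem_smallAdeles_zero, zero_mem _]
  exact ⟨fun i j => sub_mem (h i j) (h2 i j), fun i j => sub_mem (h' i j) (h2 i j)⟩

theorem small_mul_matrix {e : HeightOneSpectrum (𝓞 K) → ℕ} {A B : Matrix (Fin 2) (Fin 2) (Adf K)}
    (hA : ∀ i j, A i j ∈ smallAdeles (0 : HeightOneSpectrum (𝓞 K) → ℕ))
    (hB : ∀ i j, B i j ∈ smallAdeles e) (i j : Fin 2) : (A * B) i j ∈ smallAdeles e := by
  rw [Matrix.mul_apply]
  exact sum_mem fun k _ => by rw [mul_comm]; exact mul_mem_smallAdeles (hB k j) (hA i k)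

theorem small_mul_matrix' {e : HeightOneSpectrum (𝓞 K) → ℕ} {A B : Matrix (Fin 2) (Fin 2) (Adf K)}
    (hA : ∀ i j, A i j ∈ smallAdeles e)
    (hB : ∀ i j, B i j ∈ smallAdeles (0 : HeightOneSpectrum (𝓞 K) → ℕ)) (i j : Fin 2) :
    (A * B) i j ∈ smallAdeles e := by
  rw [Matrix.mul_apply]
  exact sum_mem fun k _ => mul_mem_smallAdeles (hA i k) (hB k j)

theorem IsIntGL.isNearOne_inv_mul {e : HeightOneSpectrum (𝓞 K) → ℕ} {g g' : GAf K}
    (hg : IsIntGL g) (hg' : IsIntGL g') (h : ∀ i j, g' i j - g i j ∈ smallAdeles e) :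
    IsNearOne e (g⁻¹ * g') := by
  have key : ∀ a c : GAf K, IsIntGL a → (∀ i j, c i j - a i j ∈ smallAdeles e) →
      ∀ i j, (a⁻¹ * c : GAf K) i j - (1 : Matrix (Fin 2) (Fin 2) (Adf K)) i j ∈ smallAdeles e := by
    intro a c ha hc i j
    have h1 := small_mul_matrix ha.inv.entry
      (B := (c : Matrix (Fin 2) (Fin 2) (Adf K)) - (a : Matrix (Fin 2) (Fin 2) (Adf K)))
      (fun i j => by simpa using hc i j) i j
    rw [mul_sub, Matrix.sub_apply, ← Units.val_mul a⁻¹ a, inv_mul_cancel] at h1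
    simpa using h1
  refine ⟨key g g' hg h, ?_⟩
  rw [mul_inv_rev, inv_inv]
  exact key g' g hg' fun i j => by simpa using neg_mem (h i j)

theorem IsIntGL.conj_near {e : HeightOneSpectrum (𝓞 K) → ℕ} {a k : GAf K} (ha : IsIntGL a)
    (hk : IsNearOne e k) : IsNearOne e (a⁻¹ * k * a) := by
  have key : ∀ c : GAf K,
      (∀ i j, c i j - (1 : Matrix (Fin 2) (Fin 2) (Adf K)) i j ∈ smallAdeles e) →
      ∀ i j, (a⁻¹ * c * a : GAf K) i j - (1 : Matrix (Fin 2) (Fin 2) (Adf K)) i j ∈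
        smallAdeles e := by
    intro c hc i j
    have h1 := small_mul_matrix' (small_mul_matrix ha.inv.entry
      (B := (c : Matrix (Fin 2) (Fin 2) (Adf K)) - 1) (fun i j => by simpa using hc i j))
      ha.entry i j
    rw [mul_sub, mul_one, sub_mul, Matrix.sub_apply, ← Units.val_mul a⁻¹ a, inv_mul_cancel] at h1
    simpa using h1
  refine ⟨key k hk.1, ?_⟩
  rw [show (a⁻¹ * k * a)⁻¹ = a⁻¹ * k⁻¹ * a by group]
  exact key _ hk.2

variable (n) in
/-- The integral adelic matrix `g` reduces to `h` modulo `n`. -/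
def RedG (g : GAf K) (h : GL (Fin 2) (𝓞 K ⧸ Ideal.span {n})) : Prop :=
  IsIntGL g ∧ ∀ i j, RedA n (g i j) (h i j)

theorem RedG.mul (hn : n ≠ 0) {g g' : GAf K} {h h' : GL (Fin 2) (𝓞 K ⧸ Ideal.span {n})}
    (hg : RedG n g h) (hg' : RedG n g' h') : RedG n (g * g') (h * h') := by
  refine ⟨hg.1.mul hg'.1, fun i j => ?_⟩
  simp only [Matrix.GeneralLinearGroup.coe_mul, Matrix.mul_apply, Fin.sum_univ_two]
  exact ((hg.2 i 0).mul hn (hg'.2 0 j)).add hn ((hg.2 i 1).mul hn (hg'.2 1 j))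

theorem RedG.near {g g' : GAf K} {h : GL (Fin 2) (𝓞 K ⧸ Ideal.span {n})}
    (hg : RedG n g h) (hg' : RedG n g' h) : IsNearOne (nExp n) (g⁻¹ * g') :=
  hg.1.isNearOne_inv_mul hg'.1 fun i j => (hg'.2 i j).sub_small (hg.2 i j)

theorem redG_one (hn : n ≠ 0) : RedG n (1 : GAf K) 1 := by
  refine ⟨isIntGL_of_entries ?_ ?_, fun i j => ?_⟩
  · intro i j
    rw [Units.val_one, Matrix.one_apply]
    split_ifs
    exacts [one_mem_smallAdeles_zero, zero_mem _]
  · intro i j
    rw [inv_one, Units.val_one, Matrix.one_apply]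
    split_ifs
    exacts [one_mem_smallAdeles_zero, zero_mem _]
  · rw [Units.val_one, Units.val_one, Matrix.one_apply, Matrix.one_apply]
    split_ifs
    exacts [redA_one hn, redA_zero hn]

theorem isIntGL_upperTri {a d : (Adf K)ˣ} {b : Adf K} (ha : IsUnitId a) (hd : IsUnitId d)
    (hb : b ∈ smallAdeles (0 : HeightOneSpectrum (𝓞 K) → ℕ)) : IsIntGL (upperTri a b d) := by
  refine isIntGL_of_entries (fun i j => ?_) (fun i j => ?_)
  · fin_cases i <;> fin_cases j <;> simp [upperTri, ha.integral, hd.integral, hb]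
  · rw [upperTri_inv]
    fin_cases i <;> fin_cases j <;>
      simp [upperTri, ha.inv.integral, hd.inv.integral,
        mul_mem_smallAdeles (mul_mem_smallAdeles ha.inv.integral hb) hd.inv.integral]

theorem redG_upperTri (hn : n ≠ 0) {a d : (Adf K)ˣ} {b : Adf K}
    {r t : (𝓞 K ⧸ Ideal.span {n})ˣ} {s : 𝓞 K ⧸ Ideal.span {n}} (ha : IsUnitId a)
    (hd : IsUnitId d) (har : RedA n (a : Adf K) r) (hbs : RedA n b s)
    (hdt : RedA n (d : Adf K) t) : RedG n (upperTri a b d) (upperTri r s t) := by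
  refine ⟨isIntGL_upperTri ha hd hbs.integral, fun i j => ?_⟩
  fin_cases i <;> fin_cases j <;> simp [upperTri, har, hbs, hdt, redA_zero hn]

theorem redG_rationalMat (hn : n ≠ 0) (γ : GL (Fin 2) (𝓞 K)) :
    RedG n (rationalMat (Matrix.GeneralLinearGroup.map (algebraMap (𝓞 K) K) γ))
      (Matrix.GeneralLinearGroup.map (Ideal.Quotient.mk _) γ) := by
  refine ⟨isIntGL_of_entries (fun i j => ?_) (fun i j => ?_), fun i j => ?_⟩
  · exact rat_int_small (γ i j)
  · rw [← map_inv, ← map_inv]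
    exact rat_int_small ((γ⁻¹ : GL (Fin 2) (𝓞 K)) i j)
  · exact redA_rat hn (γ i j)

theorem exists_redG (hn : n ≠ 0) (h : GL (Fin 2) (𝓞 K ⧸ Ideal.span {n})) :
    ∃ g : GAf K, RedG n g h ∧ ∀ (v : HeightOneSpectrum (𝓞 K)) (i j : Fin 2),
      nExp n v = 0 → g i j v = if i = j then 1 else 0 := by
  classical
  choose o ho using fun i j => Ideal.Quotient.mk_surjective
    ((h : Matrix (Fin 2) (Fin 2) (𝓞 K ⧸ Ideal.span {n})) i j)
  set M : Matrix (Fin 2) (Fin 2) (Adf K) :=
    Matrix.of fun i j => crt n hn (o i j) (if i = j then 1 else 0) with hM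
  have hred : ∀ i j, RedA n (M i j) (h i j) := fun i j => by
    simp only [hM, Matrix.of_apply]; exact ho i j ▸ redA_crt hn _ _
  have hdetred : RedA n M.det (Matrix.GeneralLinearGroup.det h : (𝓞 K ⧸ Ideal.span {n})ˣ) := by
    rw [Matrix.GeneralLinearGroup.val_det_apply, Matrix.det_fin_two, Matrix.det_fin_two,
      sub_eq_add_neg, sub_eq_add_neg]
    have hneg : ∀ {x : Adf K} {r : 𝓞 K ⧸ Ideal.span {n}}, RedA n x r → RedA n (-x) (-r) :=
      fun {x r} hx => by
        simpa using (redA_rat hn (-1 : 𝓞 K)).mul hn hx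
    exact ((hred 0 0).mul hn (hred 1 1)).add hn (hneg ((hred 0 1).mul hn (hred 1 0)))
  obtain ⟨a, ha, har, -⟩ := exists_unitId hn (Matrix.GeneralLinearGroup.det h)
  have hdiff := hdetred.sub_small har
  have hv : ∀ v, Valued.v (M.det v) = 1 := by
    intro v
    by_cases hev : nExp n v = 0
    · simp only [Matrix.det_fin_two, hM, Matrix.of_apply, adele_sub_apply, adele_mul_apply,
        crt_apply, hev, if_true]
      norm_num
    · have h1 := hdiff v
      rw [adele_sub_apply] at h1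
      have hlt : Valued.v (M.det v - (a : Adf K) v) < Valued.v ((a : Adf K) v) := by
        rw [ha v]
        exact h1.trans_lt (by rw [← exp_zero, exp_lt_exp]; omega)
      rw [Valuation.map_eq_of_sub_lt _ hlt, ha v]
  have hu : IsUnit M.det :=
    FiniteAdeleRing.isUnit_iff.mpr ⟨fun v h0 => by simpa [h0] using hv v,
      Eventually.of_forall fun v => hv v⟩
  refine ⟨Matrix.GeneralLinearGroup.mk'' M hu, ⟨isIntGL_of_entries (fun i j => (hred i j).integral)
    (fun i j => ?_), hred⟩, fun v i j hev => ?_⟩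
  swap
  · change M i j v = _
    simp only [hM, Matrix.of_apply, crt_apply, hev, if_true]
    split_ifs <;> simp
  rw [Matrix.coe_units_inv]
  change (M⁻¹) i j ∈ _
  rw [Matrix.inv_def, Matrix.smul_apply, smul_eq_mul]
  obtain ⟨u, hu'⟩ := hu
  rw [← hu', Ring.inverse_unit]
  refine mul_mem_smallAdeles (IsUnitId.inv (a := u) fun v => by rw [hu']; exact hv v).integral ?_
  rw [Matrix.adjugate_fin_two]
  fin_cases i <;> fin_cases j <;> simp [(hred _ _).integral]

end FermatAgent.LT.Descended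

end
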