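import Mathlib
import Fermat.Agent.LT.Base.Space

set_option autoImplicit false

/-!
# Finite sums of functions of spherical parameter zero
-/

noncomputable section

open MeasureTheory
open scoped ENNReal

namespace FermatAgent.LT.H3

theorem ball_volume_lt_top (P : H3) {ε : ℝ} (hε : 0 ≤ ε) : vol (ball P ε) < ∞ := by
  have hS := isCompact_ballSet P ε
  rw [← preimage_ballSet P hε, vol, measurableEmbedding_coords.comap_preimage]
  refine (measure_mono Set.inter_subset_left).trans_lt ?_
  rw [withDensity_apply _ hS.measurableSet]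
  have hcont : ContinuousOn (fun p : ℂ × ℝ => (p.2 ^ 3)⁻¹) (ballSet P ε) :=
    ContinuousOn.inv₀ (by fun_prop) fun p hp => pow_ne_zero 3 (ne_of_gt (ballSet_subset P ε hp))
  exact (lintegral_mono fun p => Real.ofReal_le_enorm _).trans_lt
    (hcont.integrableOn_compact hS).hasFiniteIntegral

theorem integrableOn_ball_of_bounded {f : H3 → ℂ} (hf : Continuous f) {C : ℝ}
    (hC : ∀ P, ‖f P‖ ≤ C) (P : H3) {ε : ℝ} (hε : 0 ≤ ε) : IntegrableOn f (ball P ε) vol :=
  Measure.integrableOn_of_bounded (ball_volume_lt_top P hε).ne hf.aestronglyMeasurable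
    (Filter.Eventually.of_forall hC)

theorem IsSph0.sum {α : Type*} (s : Finset α) {f : α → H3 → ℂ}
    (hc : ∀ i ∈ s, Continuous (f i)) (hb : ∀ i ∈ s, ∃ C, ∀ P, ‖f i P‖ ≤ C)
    (hf : ∀ i ∈ s, IsSph0 (f i)) : IsSph0 fun P => ∑ i ∈ s, f i P := by
  intro P ε hε
  rw [integral_finsetSum s fun i hi =>
    integrableOn_ball_of_bounded (hc i hi) (hb i hi).choose_spec P hε.le, Finset.mul_sum]
  exact Finset.sum_congr rfl fun i hi => hf i hi P ε hε

theorem IsSph0.const_mul {f : H3 → ℂ} (hf : IsSph0 f) (c : ℂ) : IsSph0 fun P => c * f P := by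
  intro P ε hε
  rw [integral_const_mul, hf P ε hε]
  ring

end FermatAgent.LT.H3

end
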