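import Mathlib
import Fermat.Agent.LT.Descent.Descended
import Fermat.Agent.LT.Descent.Classical.Eis
import Fermat.Agent.LT.Descent.Classical.Reduce
import Fermat.Agent.LT.Descent.Classical.Sph
import Fermat.Agent.LT.MultOne.Main

set_option autoImplicit false
set_option linter.unusedSectionVars false


/-!
# The averaged descended form of full level `3m`
-/

noncomputable section

open NumberField IsDedekindDomain WithZero Filter

namespace FermatAgent.LT

namespace Descended

open scoped Classical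

variable (S : Setup)

/-- The level `3m`. -/
abbrev nK : 𝓞 S.K := ((3 * S.m : ℕ) : 𝓞 S.K)

theorem nK_ne_zero : nK S ≠ 0 :=
  Nat.cast_ne_zero.mpr (mul_ne_zero three_ne_zero S.m_squarefree.ne_zero)

/-- The square root of `-3`. -/
def deltaK : 𝓞 S.K := S.eK deltaE

theorem deltaK_ne_zero : deltaK S ≠ 0 :=
  (map_ne_zero_iff _ S.eK.injective).mpr deltaE_ne_zero

theorem deltaK_coe_ne_zero : (deltaK S : S.K) ≠ 0 :=
  RingOfIntegers.coe_ne_zero_iff.mpr (deltaK_ne_zero S)

theorem deltaK_sq : deltaK S * deltaK S = -(3 : ℕ) := by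
  rw [deltaK, ← map_mul, deltaE_sq, map_neg, S.eK_natCast]

theorem prime_deltaK : Prime (deltaK S) :=
  (MulEquiv.prime_iff (S.eK.toMulEquiv)).mpr prime_deltaE

/-- The place over three. -/
def v3 : HeightOneSpectrum (𝓞 S.K) :=
  ⟨Ideal.span {deltaK S}, (Ideal.span_singleton_prime (deltaK_ne_zero S)).mpr (prime_deltaK S),
    by simpa using deltaK_ne_zero S⟩

theorem eq_v3_of_mem {v : HeightOneSpectrum (𝓞 S.K)} (h : deltaK S ∈ v.asIdeal) : v = v3 S := by
  refine (HeightOneSpectrum.ext ?_).symm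
  exact (v3 S).isMaximal.eq_of_le v.isPrime.ne_top
    ((Ideal.span_singleton_le_iff_mem _).mpr h)

theorem three_mem_iff (v : HeightOneSpectrum (𝓞 S.K)) : (3 : 𝓞 S.K) ∈ v.asIdeal ↔ v = v3 S := by
  have h3 : (3 : 𝓞 S.K) = -(deltaK S * deltaK S) := by rw [deltaK_sq]; simp
  refine ⟨fun h => eq_v3_of_mem S ?_, ?_⟩
  · rw [h3, neg_mem_iff] at h
    exact (v.isPrime.mem_or_mem h).elim id id
  · rintro rfl
    rw [h3, neg_mem_iff]
    exact Ideal.mul_mem_right _ _ (Ideal.mem_span_singleton_self _)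

theorem intValuation_deltaK (v : HeightOneSpectrum (𝓞 S.K)) :
    v.intValuation (deltaK S) = if v = v3 S then exp (-1 : ℤ) else 1 := by
  split_ifs with h
  · subst h
    exact (v3 S).intValuation_singleton (deltaK_ne_zero S) rfl
  · exact v.intValuation_eq_one_iff.mpr fun hm => h (eq_v3_of_mem S hm)

theorem valued_deltaK (v : HeightOneSpectrum (𝓞 S.K)) :
    Valued.v (loc v (deltaK S : S.K)) = if v = v3 S then exp (-1 : ℤ) else 1 := by
  rw [valued_loc, HeightOneSpectrum.valuation_of_algebraMap, intValuation_deltaK]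

theorem two_le_nExp_v3 : 2 ≤ nExp (nK S) (v3 S) := by
  rw [le_nExp_iff (nK_ne_zero S), pow_two]
  rw [show (nK S) = (deltaK S * deltaK S) * (-(S.m : 𝓞 S.K)) by
    rw [deltaK_sq, nK]; push_cast; ring]
  exact Ideal.mul_mem_right _ _ (Ideal.mul_mem_mul (Ideal.mem_span_singleton_self _)
    (Ideal.mem_span_singleton_self _))

/-- The exponents of the level ideal. -/
def eRad (v : HeightOneSpectrum (𝓞 S.K)) : ℕ := if nExp (nK S) v = 0 then 0 else 1

theorem isLevelExp_eRad : IsLevelExp (S.levelIdeal S.K) (eRad S) := fun v k hk => by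
  obtain ⟨h1, h2⟩ := isLevelExp_radical (nK_ne_zero S) (v := v) hk
  unfold eRad
  split_ifs with h
  · exact (h2 ((nExp_eq_zero_iff (nK_ne_zero S) v).mp h)).le
  · exact h1

theorem eRad_le (v : HeightOneSpectrum (𝓞 S.K)) : eRad S v ≤ nExp (nK S) v := by
  unfold eRad
  split_ifs with h <;> omega

theorem levelIdeal_ne_bot : S.levelIdeal S.K ≠ ⊥ := fun h0 => by
  have h := Ideal.le_radical (Ideal.mem_span_singleton_self (nK S))
  rw [show (Ideal.span {nK S}).radical = ⊥ from h0, Ideal.mem_bot] at h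
  exact nK_ne_zero S h

/-- The idele `√-3` at the place over three. -/
def tId : (Adf S.K)ˣ :=
  ideleAt (v3 S) (Units.map (loc (v3 S)).toMonoidHom (Units.mk0 (deltaK S : S.K) (deltaK_coe_ne_zero S)))

theorem valued_tId (v : HeightOneSpectrum (𝓞 S.K)) :
    Valued.v ((tId S : Adf S.K) v) = if v = v3 S then exp (-1 : ℤ) else 1 := by
  split_ifs with h
  · subst h
    rw [tId, ideleAt_self]
    change Valued.v (loc (v3 S) (deltaK S : S.K)) = _
    rw [valued_deltaK, if_pos rfl]
  · rw [tId, ideleAt_of_ne _ h, map_one]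

/-- The translation by `diag (√-3, 1)` at the place over three. -/
def tMat : GAf S.K := upperTri (tId S) 0 1

theorem conj_tMat_near {k : GAf S.K} (hk : IsNearOne (nExp (nK S)) k) :
    IsNearOne (eRad S) ((tMat S)⁻¹ * k * tMat S) := by
  have hsmall : ∀ x ∈ smallAdeles (nExp (nK S)),
      ((tId S)⁻¹ : (Adf S.K)ˣ) * x ∈ smallAdeles (eRad S) ∧
        x * (tId S : Adf S.K) ∈ smallAdeles (eRad S) := by
    intro x hx
    have h0 := valued_tId S
    have hinv : ∀ v, Valued.v (((tId S)⁻¹ : (Adf S.K)ˣ).val v) = (Valued.v ((tId S : Adf S.K) v))⁻¹ :=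
      fun v => by
        have h1 : ((tId S)⁻¹ : (Adf S.K)ˣ).val v * (tId S : Adf S.K) v = 1 := by
          rw [← adele_mul_apply, Units.inv_mul, adele_one_apply]
        rw [eq_inv_of_mul_eq_one_left h1, map_inv₀]
    constructor <;> intro v <;> rw [adele_mul_apply, map_mul]
    · rw [hinv v, h0 v]
      refine (mul_le_mul_right (hx v) _).trans ?_
      split_ifs with hv
      · subst hv
        rw [← exp_neg, ← exp_add, exp_le_exp]
        have := two_le_nExp_v3 S
        unfold eRad
        split_ifs <;> omega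
      · rw [inv_one, one_mul, exp_le_exp]
        have := eRad_le S v
        omega
    · refine (mul_le_mul_left (hx v) _).trans ?_
      rw [h0 v]
      split_ifs with hv
      · rw [← exp_add, exp_le_exp]
        have := eRad_le S v
        omega
      · rw [mul_one, exp_le_exp]
        have := eRad_le S v
        omega
  have key : ∀ c : GAf S.K,
      (∀ i j, c i j - (1 : Matrix (Fin 2) (Fin 2) (Adf S.K)) i j ∈ smallAdeles (nExp (nK S))) →
      ∀ i j, ((tMat S)⁻¹ * c * tMat S : GAf S.K) i j -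
        (1 : Matrix (Fin 2) (Fin 2) (Adf S.K)) i j ∈ smallAdeles (eRad S) := by
    intro c hc i j
    have e1 : ∀ i j, ((tMat S)⁻¹ * c * tMat S : GAf S.K) i j =
        !![c 0 0, ((tId S)⁻¹ : (Adf S.K)ˣ).val * c 0 1; c 1 0 * (tId S : Adf S.K), c 1 1] i j := by
      intro i j
      rw [tMat, upperTri_inv]
      simp only [Matrix.GeneralLinearGroup.coe_mul, Matrix.mul_apply, Fin.sum_univ_two]
      fin_cases i <;> fin_cases j <;> simp [upperTri]
      rw [mul_right_comm, Units.inv_mul, one_mul]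
    rw [e1]
    have h00 := smallAdeles_anti (eRad_le S) (hc 0 0)
    have h11 := smallAdeles_anti (eRad_le S) (hc 1 1)
    have h01 := (hsmall _ (hc 0 1)).1
    have h10 := (hsmall _ (hc 1 0)).2
    fin_cases i <;> fin_cases j <;> simp at h00 h11 h01 h10 ⊢ <;> assumption
  refine ⟨key k hk.1, ?_⟩
  rw [show ((tMat S)⁻¹ * k * tMat S)⁻¹ = (tMat S)⁻¹ * k⁻¹ * tMat S by group]
  exact key _ hk.2

/-- The residue ring. -/
abbrev ResK : Type := 𝓞 S.K ⧸ Ideal.span {nK S}

instance instFiniteResK : Finite (ResK S) :=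
  Ideal.finiteQuotientOfFreeOfNeBot _ (by simpa [Ideal.span_singleton_eq_bot] using nK_ne_zero S)

instance instFintypeResKUnits : Fintype (ResK S)ˣ := Fintype.ofFinite _

/-- A unit idele with given residue. -/
def kId (u : (ResK S)ˣ) : (Adf S.K)ˣ := (exists_unitId (nK_ne_zero S) u).choose

theorem isUnitId_kId (u : (ResK S)ˣ) : IsUnitId (kId S u) :=
  (exists_unitId (nK_ne_zero S) u).choose_spec.1

theorem redA_kId (u : (ResK S)ˣ) : RedA (nK S) (kId S u : Adf S.K) u :=
  (exists_unitId (nK_ne_zero S) u).choose_spec.2.1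

theorem kId_apply_of_good (u : (ResK S)ˣ) {v : HeightOneSpectrum (𝓞 S.K)}
    (hv : nExp (nK S) v = 0) : (kId S u : Adf S.K) v = 1 :=
  (exists_unitId (nK_ne_zero S) u).choose_spec.2.2 v hv

/-- The corresponding diagonal matrix. -/
def kDiag (u : (ResK S)ˣ) : GAf S.K := upperTri (kId S u) 0 1

theorem redG_kDiag (u : (ResK S)ˣ) : RedG (nK S) (kDiag S u) (upperTri u 0 1) :=
  redG_upperTri (nK_ne_zero S) (isUnitId_kId S u)
    (fun v => by rw [Units.val_one, adele_one_apply, map_one]) (redA_kId S u)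
    (redA_zero (nK_ne_zero S)) (by simpa using redA_one (nK_ne_zero S))

/-- The averaged form. -/
def phiAvg (φ : XInf S.K → GAf S.K → ℂ) (x : XInf S.K) (g : GAf S.K) : ℂ :=
  ∑ u : (ResK S)ˣ, φ x (g * kDiag S u * tMat S)

/-- The coefficient function of the averaged form. -/
def wAvg (W : GAf S.K → ℂ) (g : GAf S.K) : ℂ :=
  ∑ u : (ResK S)ˣ, W (g * kDiag S u * tMat S)

/-- Its values at diagonal matrices. -/
def vAvg (W : GAf S.K → ℂ) (a : (Adf S.K)ˣ) : ℂ := wAvg S W (upperTri a 0 1)

theorem upperTri_diag_mul (a c : (Adf S.K)ˣ) :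
    upperTri a 0 1 * upperTri c 0 1 = (upperTri (a * c) 0 1 : GAf S.K) := by
  rw [upperTri_mul]; simp

theorem vAvg_eq (W : GAf S.K → ℂ) (a : (Adf S.K)ˣ) :
    vAvg S W a = ∑ u : (ResK S)ˣ, diagW W (a * kId S u * tId S) := by
  refine Finset.sum_congr rfl fun u _ => ?_
  rw [kDiag, tMat, upperTri_diag_mul, upperTri_diag_mul]
  rfl

variable {S} {φ : XInf S.K → GAf S.K → ℂ} (hφ : IsCuspFn (S.levelIdeal S.K) φ)
include hφ

theorem phi_near {k : GAf S.K} (hk : IsNearOne (nExp (nK S)) k) (x : XInf S.K) (g : GAf S.K) :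
    φ x (g * k * tMat S) = φ x (g * tMat S) := by
  rw [show g * k * tMat S = g * tMat S * ((tMat S)⁻¹ * k * tMat S) by group,
    hφ.level _ ((conj_tMat_near S hk).mem_congrSubgroup (isLevelExp_eRad S))]

theorem phiAvg_near {k : GAf S.K} (hk : IsNearOne (nExp (nK S)) k) (x : XInf S.K) (g : GAf S.K) :
    phiAvg S φ x (g * k) = phiAvg S φ x g := by
  refine Finset.sum_congr rfl fun u _ => ?_
  rw [show g * k * kDiag S u = g * kDiag S u * ((kDiag S u)⁻¹ * k * kDiag S u) by group,
    phi_near hφ ((redG_kDiag S u).1.conj_near hk)]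

theorem phiAvg_congr {g g' : GAf S.K} {h : GL (Fin 2) (ResK S)} (hg : RedG (nK S) g h)
    (hg' : RedG (nK S) g' h) (x : XInf S.K) : phiAvg S φ x g = phiAvg S φ x g' := by
  have := phiAvg_near hφ (hg.near hg') x g
  rw [mul_inv_cancel_left] at this
  exact this.symm

theorem phiAvg_rational (γ : GL (Fin 2) S.K) (x : XInf S.K) (g : GAf S.K) :
    phiAvg S φ (infAct γ x) (rationalMat γ * g) = phiAvg S φ x g := by
  refine Finset.sum_congr rfl fun u _ => ?_
  rw [mul_assoc (rationalMat γ), mul_assoc (rationalMat γ), hφ.rational]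

theorem phiAvg_central (a : (Adf S.K)ˣ) (x : XInf S.K) (g : GAf S.K) :
    phiAvg S φ x (g * upperTri a 0 a) = phiAvg S φ x g := by
  refine Finset.sum_congr rfl fun u _ => ?_
  have h1 : upperTri a 0 a * kDiag S u * tMat S = kDiag S u * tMat S * upperTri a 0 a := by
    simp only [kDiag, tMat, upperTri_mul, mul_zero, zero_mul, add_zero, mul_one, one_mul]
    congr 1
    ac_rfl
  rw [show g * upperTri a 0 a * kDiag S u * tMat S = g * (upperTri a 0 a * kDiag S u * tMat S) by
    group, h1, show g * (kDiag S u * tMat S * upperTri a 0 a) =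
      g * kDiag S u * tMat S * upperTri a 0 a by group, hφ.central]

theorem phiAvg_continuous (g : GAf S.K) : Continuous fun x => phiAvg S φ x g :=
  continuous_finsetSum _ fun _ _ => hφ.continuous _

theorem phiAvg_bounded : ∃ C, ∀ x g, ‖phiAvg S φ x g‖ ≤ C := by
  obtain ⟨C, hC⟩ := hφ.bounded
  exact ⟨∑ _u : (ResK S)ˣ, C, fun x g => norm_sum_le_of_le _ fun u _ => hC _ _⟩

theorem phiAvg_sph0 (w : InfinitePlace S.K) (x : XInf S.K) (g : GAf S.K) :
    letI := Classical.decEq (InfinitePlace S.K)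
    H3.IsSph0 fun P => phiAvg S φ (Function.update x w P) g := by
  classical
  obtain ⟨C, hC⟩ := hφ.bounded
  exact H3.IsSph0.sum Finset.univ
    (fun u _ => (hφ.continuous _).comp (by convert Continuous.update (f := fun _ : H3 => x) continuous_const w continuous_id using 2; congr!))
    (fun u _ => ⟨C, fun P => hC _ _⟩) (fun u _ => hφ.sph0 w x _)

variable {W : GAf S.K → ℂ} (hW : HasExpansion φ W)
include hW

theorem phiAvg_expansion : HasExpansion (phiAvg S φ) (wAvg S W) := by
  intro x g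
  have h := HasExpansion.sum (Finset.univ : Finset (ResK S)ˣ)
    (fun u => hW.comp_mul_right (kDiag S u * tMat S)) x g
  simp only [← mul_assoc] at h
  exact h

theorem diagW_congr {k : GAf S.K} (hk : k ∈ congrSubgroup (S.levelIdeal S.K)) (g : GAf S.K) :
    W (g * k) = W g := by
  rw [hW.mul_right (c := 1) (fun x g => by rw [hφ.level k hk, one_mul]) g, one_mul]

/-- The averaged coefficient only depends on the valuations. -/
theorem vAvg_mul_unit (a : (Adf S.K)ˣ) {η : (Adf S.K)ˣ} (hη : IsUnitId η) :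
    vAvg S W (a * η) = vAvg S W a := by
  have hn := nK_ne_zero S
  obtain ⟨r, hr⟩ := exists_redA hn hη.integral
  obtain ⟨r', hr'⟩ := exists_redA hn hη.inv.integral
  have hrr : r * r' = 1 := (hr.mul hn hr').unique hn (by
    rw [← Units.val_mul, mul_inv_cancel, Units.val_one]; exact redA_one hn)
  set ru : (ResK S)ˣ := ⟨r, r', hrr, by rw [mul_comm]; exact hrr⟩ with hru
  rw [vAvg_eq, vAvg_eq]
  refine Fintype.sum_equiv (Equiv.mulLeft ru) _ _ fun u => ?_
  have hred : ∀ η' : (Adf S.K)ˣ, IsUnitId η' → RedA (nK S) (η' : Adf S.K) ((ru * u : (ResK S)ˣ)) →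
      RedG (nK S) (upperTri η' 0 1) (upperTri (ru * u) 0 1) := fun η' h1 h2 =>
    redG_upperTri hn h1 (fun v => by rw [Units.val_one, adele_one_apply, map_one]) h2
      (redA_zero hn) (by simpa using redA_one hn)
  have hnear := (hred _ (hη.mul (isUnitId_kId S u)) (by
    rw [Units.val_mul, Units.val_mul]; exact hr.mul hn (redA_kId S u))).near
      (hred _ (isUnitId_kId S (ru * u)) (redA_kId S (ru * u)))
  have hd : ∀ c : (Adf S.K)ˣ, diagW W (c * tId S) = W (upperTri c 0 1 * tMat S) := fun c => by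
    rw [tMat, upperTri_diag_mul]; rfl
  rw [Equiv.coe_mulLeft, hd, hd]
  have e : upperTri (a * kId S (ru * u)) 0 1 * tMat S =
      upperTri (a * η * kId S u) 0 1 * tMat S *
        ((tMat S)⁻¹ * ((upperTri (η * kId S u) 0 1)⁻¹ * upperTri (kId S (ru * u)) 0 1) * tMat S) := by
    rw [← upperTri_diag_mul S a (kId S (ru * u)), show a * η * kId S u = a * (η * kId S u) by
      rw [mul_assoc], ← upperTri_diag_mul S a (η * kId S u)]
    group
  rw [e, diagW_congr hφ hW ((conj_tMat_near S hnear).mem_congrSubgroup (isLevelExp_eRad S))]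

theorem vAvg_congr {a a' : (Adf S.K)ˣ}
    (h : ∀ v : HeightOneSpectrum (𝓞 S.K), Valued.v ((a : Adf S.K) v) = Valued.v ((a' : Adf S.K) v)) :
    vAvg S W a = vAvg S W a' := by
  have hη : IsUnitId (a⁻¹ * a') := fun v => by
    have h1 : ((a⁻¹ : (Adf S.K)ˣ) : Adf S.K) v * (a : Adf S.K) v = 1 := by
      rw [← adele_mul_apply, Units.inv_mul, adele_one_apply]
    rw [Units.val_mul, adele_mul_apply, map_mul, ← h v, ← map_mul, h1, map_one]
  rw [← vAvg_mul_unit hφ hW a hη, mul_inv_cancel_left]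

end Descended

end FermatAgent.LT

end
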