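import Mathlib
import Fermat.Agent.LT.Descent.Classical.Form

set_option autoImplicit false

/-!
# The places of the field of Eisenstein numbers, their norms and the local characters at `3m`
-/

noncomputable section

open NumberField IsDedekindDomain WithZero Filter
open scoped Classical
open Complex (normSq)

namespace FermatAgent.LT

namespace Descended

variable (S : Setup)

/-- The place of a prime Eisenstein integer. -/
def placeOf (π : EisInt) (hπ : Prime π) : HeightOneSpectrum (𝓞 S.K) :=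
  ⟨Ideal.span {S.eK π},
    (Ideal.span_singleton_prime ((map_ne_zero_iff _ S.eK.injective).mpr hπ.ne_zero)).mpr
      ((MulEquiv.prime_iff S.eK.toMulEquiv).mpr hπ),
    by simpa using (map_ne_zero_iff _ S.eK.injective).mpr hπ.ne_zero⟩

theorem exists_placeOf (v : HeightOneSpectrum (𝓞 S.K)) :
    ∃ (π : EisInt) (hπ : Prime π), v = placeOf S π hπ := by
  obtain ⟨g, hg⟩ := (IsPrincipalIdealRing.principal v.asIdeal).principal
  rw [Ideal.submodule_span_eq] at hg
  have hg0 : g ≠ 0 := fun h => v.ne_bot (by rw [hg, h]; simp)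
  have hgp : Prime g := (Ideal.span_singleton_prime hg0).mp (by
    have := v.isPrime
    rwa [hg] at this)
  obtain ⟨π, rfl⟩ := S.eK.surjective g
  exact ⟨π, (MulEquiv.prime_iff S.eK.toMulEquiv).mp hgp, HeightOneSpectrum.ext hg⟩

theorem eK_mem_placeOf {π : EisInt} (hπ : Prime π) (x : EisInt) :
    S.eK x ∈ (placeOf S π hπ).asIdeal ↔ π ∣ x := by
  change S.eK x ∈ Ideal.span {S.eK π} ↔ _
  rw [Ideal.mem_span_singleton, map_dvd_iff]

theorem nK_mem_placeOf {π : EisInt} (hπ : Prime π) :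
    nK S ∈ (placeOf S π hπ).asIdeal ↔ π ∣ ((3 * S.m : ℕ) : EisInt) := by
  rw [← eK_mem_placeOf S hπ, S.eK_natCast]

include S in
theorem isCoprime_iff_not_dvd {π : EisInt} (hπ : Prime π) (x : EisInt) :
    IsCoprime π x ↔ ¬ π ∣ x := by
  have : IsPrincipalIdealRing EisInt :=
    IsPrincipalIdealRing.of_surjective S.eK.symm.toRingHom S.eK.symm.surjective
  exact hπ.coprime_iff_not_dvd

theorem norm_emb_sq (x : S.K) : ‖S.emb x‖ ^ 2 = |(Algebra.norm ℚ x : ℝ)| := by
  have h := InfinitePlace.prod_eq_abs_norm x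
  rw [Fintype.prod_unique,
    InfinitePlace.IsComplex.mult_eq_two (IsTotallyComplex.isComplex _)] at h
  rw [← Rat.cast_abs, ← h, ← InfinitePlace.norm_embedding_eq]
  rfl

theorem normSq_eq_natAbs_norm (x : EisInt) :
    normSq (x : ℂ) = ((Algebra.norm ℤ (S.eK x)).natAbs : ℝ) := by
  rw [Complex.normSq_eq_norm_sq, ← S.emb_eK x, norm_emb_sq, ← Algebra.coe_norm_int,
    Nat.cast_natAbs, Int.cast_abs]
  push_cast
  rfl

theorem absNorm_placeOf {π : EisInt} (hπ : Prime π) :
    (Ideal.absNorm (placeOf S π hπ).asIdeal : ℝ) = normSq (π : ℂ) := by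
  rw [normSq_eq_natAbs_norm S π]
  congr 1
  exact Ideal.absNorm_span_singleton _

theorem sqrt_absNorm_placeOf {π : EisInt} (hπ : Prime π) :
    Real.sqrt (Ideal.absNorm (placeOf S π hπ).asIdeal) = ‖(π : ℂ)‖ := by
  rw [absNorm_placeOf, Complex.normSq_eq_norm_sq, Real.sqrt_sq (norm_nonneg _)]

theorem sq_not_dvd_prime {π : EisInt} (hπ : Prime π) {q : ℕ} (hq : q.Prime) (hq3 : q ≠ 3)
    (h : π * π ∣ (q : EisInt)) : False := by
  obtain ⟨N, hN⟩ := Period.exists_natCast_normSq π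
  obtain ⟨y, hy⟩ := h
  obtain ⟨M, hM⟩ := Period.exists_natCast_normSq y
  have h1 := congrArg (fun x : EisInt => normSq (x : ℂ)) hy
  simp only [MulMemClass.coe_mul, map_mul, hN, hM] at h1
  rw [show ((q : EisInt) : ℂ) = ((q : ℕ) : ℂ) from map_natCast EisInt.subtype q,
    Complex.normSq_natCast] at h1
  have h2 : q * q = N * N * M := by exact_mod_cast h1
  have hN1 : N ≠ 1 := fun e => hπ.not_isUnit
    (IsUnit.of_mul_eq_one (Period.eisConj π) (by rw [Period.mul_eisConj (n := N) hN, e]; simp))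
  have hNq : N = q := by
    have hd : N * N ∣ q * q := ⟨M, h2⟩
    rw [← pow_two, ← pow_two] at hd
    have hd' : N ∣ q := (Nat.pow_dvd_pow_iff two_ne_zero).mp hd
    exact ((Nat.dvd_prime hq).mp hd').resolve_left hN1
  subst hNq
  have h3 : π * Period.eisConj π = π * (π * y) := by
    rw [Period.mul_eisConj hN, ← mul_assoc, hy]
  have h4 : π ∣ Period.eisConj π := ⟨y, mul_left_cancel₀ hπ.ne_zero h3⟩
  exact hπ.not_isUnit ((Period.isCoprime_eisConj hq hq3 hN).isUnit_of_dvd' dvd_rfl h4)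

theorem nExp_v3 : nExp (nK S) (v3 S) = 2 := by
  refine le_antisymm ?_ (two_le_nExp_v3 S)
  by_contra h
  have h3 : 3 ≤ nExp (nK S) (v3 S) := by omega
  rw [le_nExp_iff (nK_ne_zero S)] at h3
  change nK S ∈ Ideal.span {deltaK S} ^ 3 at h3
  rw [Ideal.span_singleton_pow, Ideal.mem_span_singleton] at h3
  rw [nK, deltaK, ← S.eK_natCast, ← map_pow, map_dvd_iff] at h3
  have h4 : deltaE * deltaE * deltaE ∣ deltaE * deltaE * (-(S.m : EisInt)) := by
    rw [show deltaE * deltaE * (-(S.m : EisInt)) = ((3 * S.m : ℕ) : EisInt) by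
      rw [deltaE_sq]; push_cast; ring]
    rwa [show deltaE * deltaE * deltaE = deltaE ^ 3 by ring]
  rw [mul_dvd_mul_iff_left (mul_ne_zero deltaE_ne_zero deltaE_ne_zero), dvd_neg,
    show (S.m : EisInt) = ((S.m : ℤ) : EisInt) by simp,
    Period.dvd_intCast_iff Nat.prime_three (by
      rw [deltaE, Period.normSq_eis]; norm_num)] at h4
  exact S.three_not_dvd (Int.natCast_dvd_natCast.mp h4)

theorem nExp_le_one {v : HeightOneSpectrum (𝓞 S.K)} (hv : v ≠ v3 S) : nExp (nK S) v ≤ 1 := by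
  by_contra h
  have h2 : 2 ≤ nExp (nK S) v := by omega
  obtain ⟨π, hπ, rfl⟩ := exists_placeOf S v
  rw [le_nExp_iff (nK_ne_zero S)] at h2
  change nK S ∈ Ideal.span {S.eK π} ^ 2 at h2
  rw [Ideal.span_singleton_pow, Ideal.mem_span_singleton, nK, ← S.eK_natCast, ← map_pow,
    map_dvd_iff, pow_two, Nat.cast_mul] at h2
  have hnd : ¬ π ∣ ((3 : ℕ) : EisInt) := by
    rw [← eK_mem_placeOf S hπ, S.eK_natCast]
    exact fun h3 => hv ((three_mem_iff S _).mp (by exact_mod_cast h3))
  have hm : π * π ∣ ((S.m : ℕ) : EisInt) := (IsCoprime.mul_left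
    ((isCoprime_iff_not_dvd S hπ _).mpr hnd) ((isCoprime_iff_not_dvd S hπ _).mpr hnd)).dvd_of_dvd_mul_left h2
  have hm1 : π ∣ ((S.m : ℕ) : EisInt) := (dvd_mul_right π π).trans hm
  obtain ⟨q, hq, hqm, hπq⟩ : ∃ q : ℕ, q.Prime ∧ q ∣ S.m ∧ π ∣ (q : EisInt) := by
    rw [← Nat.prod_primeFactors_of_squarefree S.m_squarefree, Nat.cast_prod] at hm1
    obtain ⟨q, hq, hd⟩ := hπ.exists_mem_finset_dvd hm1
    exact ⟨q, Nat.prime_of_mem_primeFactors hq, Nat.dvd_of_mem_primeFactors hq, hd⟩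
  obtain ⟨r, hr⟩ := hqm
  have hqr : q.Coprime r := hq.coprime_iff_not_dvd.mpr fun hd =>
    hq.not_isUnit (S.m_squarefree q (by rw [hr]; exact mul_dvd_mul_left q hd))
  have hndr : ¬ π ∣ ((r : ℕ) : EisInt) := fun hd => hπ.not_isUnit
    (((Period.isCoprime_natCast hqr).of_isCoprime_of_dvd_left hπq).isUnit_of_dvd' dvd_rfl hd)
  rw [hr, Nat.cast_mul] at hm
  exact sq_not_dvd_prime hπ hq (fun e => S.three_not_dvd (by rw [hr, e]; exact dvd_mul_right 3 r))
    ((IsCoprime.mul_left ((isCoprime_iff_not_dvd S hπ _).mpr hndr)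
      ((isCoprime_iff_not_dvd S hπ _).mpr hndr)).dvd_of_dvd_mul_right hm)

theorem two_re_div_delta (a b : ℤ) : 2 * ((Period.eis a b : ℂ) / (deltaE : ℂ)).re = b := by
  rw [Complex.div_re, deltaE, Period.normSq_eis, Period.eis_re, Period.eis_im, Period.eis_re,
    Period.eis_im]
  have h3 : Real.sqrt 3 * Real.sqrt 3 = 3 := Real.mul_self_sqrt (by norm_num)
  push_cast
  field_simp
  ring_nf
  rw [Real.sq_sqrt (by norm_num : (0 : ℝ) ≤ 3)]

theorem charTrivAt_v3 : CharTrivAt (v3 S) (loc (v3 S) ((deltaK S : S.K)⁻¹)) := by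
  intro o
  rw [← map_mul, adelicChar_apply_of_near (b := (deltaK S : S.K)⁻¹ * (o : S.K))]
  · obtain ⟨x, rfl⟩ := S.eK.surjective o
    obtain ⟨a, b, rfl⟩ := Period.exists_eq_eis x
    rw [phaseInf_eq_exp_trace, Complex.exp_eq_one_iff]
    refine ⟨b, ?_⟩
    have ht : (Algebra.trace ℚ S.K ((deltaK S : S.K)⁻¹ * (S.eK (Period.eis a b) : S.K)) : ℝ) = b := by
      rw [S.trace_eq_two_re, map_mul, map_inv₀, deltaK, S.emb_eK, S.emb_eK, inv_mul_eq_div,
        two_re_div_delta]
    rw [show ((Algebra.trace ℚ S.K ((deltaK S : S.K)⁻¹ * (S.eK (Period.eis a b) : S.K)) : ℚ) : ℂ) =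
      (((Algebra.trace ℚ S.K ((deltaK S : S.K)⁻¹ * (S.eK (Period.eis a b) : S.K)) : ℚ) : ℝ) : ℂ) by
        norm_num, ht]
    push_cast
    ring
  · intro w
    rw [adele_sub_apply, adele_algebraMap_apply]
    rcases eq_or_ne w (v3 S) with rfl | hw
    · rw [updAt_self, sub_self, map_zero]; exact zero_le
    · rw [updAt_of_ne _ _ _ hw, Nat.cast_zero, zero_sub, Valuation.map_neg, map_mul, map_mul,
        map_inv₀, map_inv₀, valued_deltaK, if_neg hw, inv_one, one_mul, valued_loc,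
        HeightOneSpectrum.valuation_of_algebraMap]
      simpa using w.intValuation_le_one o

theorem charTrivAt_one (v : HeightOneSpectrum (𝓞 S.K)) : CharTrivAt v (1 : v.adicCompletion S.K) := by
  intro o
  refine adelicChar_of_small (updAt_mem_smallAdeles ?_)
  rw [one_mul, valued_loc, HeightOneSpectrum.valuation_of_algebraMap]
  simpa using v.intValuation_le_one o

/-- Local values that the character of `3m` does not see. -/
theorem charTrivAt_of_valued_le (v : HeightOneSpectrum (𝓞 S.K)) {c : v.adicCompletion S.K}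
    (h : Valued.v c ≤ if v = v3 S then exp (1 : ℤ) else 1) : CharTrivAt v c := by
  split_ifs at h with hv
  · subst hv
    refine charTrivAt_of_le (h.trans_eq ?_) (charTrivAt_v3 S)
    rw [map_inv₀, map_inv₀, valued_deltaK, if_pos rfl, ← exp_neg, neg_neg]
  · exact charTrivAt_of_le (h.trans_eq (map_one _).symm) (charTrivAt_one S v)

end Descended

end FermatAgent.LT

end
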