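import Mathlib
import Fermat.Agent.LT.Descent.Classical.Places
import Fermat.Agent.LT.Descent.Classical.Mult
import Fermat.Agent.LT.Base.Expansion

set_option autoImplicit false

/-!
# The coefficients of the averaged form
-/

noncomputable section

open NumberField IsDedekindDomain WithZero Filter
open scoped Classical
open Complex (normSq)

namespace FermatAgent.LT

namespace Descended

variable (S : Setup)

/-- Rational numbers as ideles. -/
def ratId (ν : S.Kˣ) : (Adf S.K)ˣ := Units.map (algebraMap S.K (Adf S.K)).toMonoidHom ν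

theorem ratId_apply (ν : S.Kˣ) (v : HeightOneSpectrum (𝓞 S.K)) :
    (ratId S ν : Adf S.K) v = loc v (ν : S.K) := rfl

theorem valued_int (v : HeightOneSpectrum (𝓞 S.K)) (o : 𝓞 S.K) :
    Valued.v (loc v (o : S.K)) = v.intValuation o := by
  rw [valued_loc, HeightOneSpectrum.valuation_of_algebraMap]

/-- The frequency of an Eisenstein integer. -/
def nu' (x : EisInt) : S.K := (S.eK x : S.K) / ((nK S : S.K) * (deltaK S : S.K))

theorem den_ne_zero : (nK S : S.K) * (deltaK S : S.K) ≠ 0 :=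
  mul_ne_zero (RingOfIntegers.coe_ne_zero_iff.mpr (nK_ne_zero S)) (deltaK_coe_ne_zero S)

theorem nu'_eq_zero_iff (x : EisInt) : nu' S x = 0 ↔ x = 0 := by
  rw [nu', div_eq_zero_iff, or_iff_left (den_ne_zero S), RingOfIntegers.coe_eq_zero_iff,
    map_eq_zero_iff _ S.eK.injective]

theorem nu'_mul (π x : EisInt) : nu' S (π * x) = (S.eK π : S.K) * nu' S x := by
  simp [nu', mul_div_assoc]

theorem emb_nu' (x : EisInt) :
    S.emb (nu' S x) = (x : ℂ) / (((3 * S.m : ℕ) : ℂ) * (1 + 2 * omega)) := by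
  rw [nu', map_div₀, map_mul, S.emb_eK, deltaK, S.emb_eK, coe_deltaE, nK]
  simp [map_ofNat]

theorem nu'_injective : Function.Injective (nu' S) := fun x y h => by
  rw [nu', nu', div_left_inj' (den_ne_zero S)] at h
  exact S.eK.injective (RingOfIntegers.coe_injective h)

theorem valued_nu' (v : HeightOneSpectrum (𝓞 S.K)) (x : EisInt) :
    Valued.v (loc v (nu' S x)) = v.intValuation (S.eK x) /
      (exp (-(nExp (nK S) v : ℤ)) * if v = v3 S then exp (-1 : ℤ) else 1) := by
  rw [nu', map_div₀, map_mul, map_div₀, map_mul, valued_int, valued_int, valued_deltaK,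
    valued_nExp (nK_ne_zero S)]

theorem exists_nu'_of_traces {ν : S.K} (h1 : ∃ k : ℤ, 2 * (S.emb (ν * (nK S : S.K))).re = k)
    (h2 : ∃ k : ℤ, 2 * (S.emb (ν * (nK S : S.K)) * omega).re = k) :
    ∃ x : EisInt, nu' S x = ν := by
  obtain ⟨A, hA⟩ := h1
  obtain ⟨B, hB⟩ := h2
  have h3 := mem_eisInt_of_traces hA hB
  refine ⟨Period.eis (A + B) A, S.emb.injective ?_⟩
  rw [emb_nu', ← h3, map_mul, coe_deltaE]
  have hden : ((3 * S.m : ℕ) : ℂ) ≠ 0 :=
    Nat.cast_ne_zero.mpr (mul_ne_zero three_ne_zero S.m_squarefree.ne_zero)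
  have hd : (1 : ℂ) + 2 * omega ≠ 0 := by
    rw [← coe_deltaE]; exact fun h0 => deltaE_ne_zero (Subtype.ext h0)
  rw [nK]
  simp only [map_natCast]
  field_simp

/-- The coefficient at a rational frequency. -/
def vK (W : GAf S.K → ℂ) (ν : S.K) : ℂ :=
  if h : ν = 0 then 0 else vAvg S W (ratId S (Units.mk0 ν h))

theorem vK_zero (W : GAf S.K → ℂ) : vK S W 0 = 0 := dif_pos rfl

theorem vK_of_ne {W : GAf S.K → ℂ} {ν : S.K} (h : ν ≠ 0) :
    vK S W ν = vAvg S W (ratId S (Units.mk0 ν h)) := dif_neg h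

theorem vK_coe (W : GAf S.K → ℂ) (ν : S.Kˣ) : vK S W (ν : S.K) = vAvg S W (ratId S ν) := by
  rw [vK_of_ne S ν.ne_zero, Units.mk0_val]

/-- The unnormalised classical coefficient. -/
def dCoef (W : GAf S.K → ℂ) (x : EisInt) : ℂ := (‖S.emb (nu' S x)‖ : ℂ) * vK S W (nu' S x)

variable {S} {φ : XInf S.K → GAf S.K → ℂ} (hφ : IsCuspFn (S.levelIdeal S.K) φ)
  {W : GAf S.K → ℂ} (hW : HasExpansion φ W)
include hφ

/-- The averaged form at the identity is periodic by multiples of `3m`. -/
theorem phiAvg_periodic {g : GAf S.K} {h : GL (Fin 2) (ResK S)} (hg : RedG (nK S) g h) (o : 𝓞 S.K)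
    (x : XInf S.K) :
    phiAvg S φ (hshift x (embVec ((nK S * o : 𝓞 S.K) : S.K))) g = phiAvg S φ x g := by
  set b : S.K := ((nK S * o : 𝓞 S.K) : S.K) with hb
  have hsmall : algebraMap S.K (Adf S.K) (-b) ∈ smallAdeles (nExp (nK S)) := by
    rw [map_neg]
    exact neg_mem ((rat_small_iff (nK_ne_zero S) _).mpr (dvd_mul_right _ _))
  have hk : IsNearOne (nExp (nK S)) (g⁻¹ * rationalMat (upperTri 1 (-b) 1) * g) := by
    rw [rationalMat_upperTri]
    simp only [map_one]
    exact hg.1.conj_near (isNearOne_upperUni hsmall)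
  have h1 := phiAvg_rational hφ (upperTri 1 (-b) 1) (hshift x (embVec b)) g
  rw [infAct_upperUni_hshift, hshift_shiftX,
    show embVec b + embVec (-b) = 0 from funext fun w => by simp [embVec_apply], hshift_zero,
    show rationalMat (upperTri 1 (-b) 1) * g = g * (g⁻¹ * rationalMat (upperTri 1 (-b) 1) * g) by
      group, phiAvg_near hφ hk] at h1
  exact h1.symm

include hW

theorem hasSum_at_diag (a : (Adf S.K)ˣ) (x : XInf S.K) :
    HasSum (fun ν : S.Kˣ => vAvg S W (ratId S ν * a) * waveProd (ν : S.K) x)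
      (phiAvg S φ x (upperTri a 0 1)) := by
  refine (phiAvg_expansion hφ hW x (upperTri a 0 1)).congr_fun fun ν => ?_
  rw [rationalMat_upperTri]
  simp only [map_zero, map_one]
  rw [upperTri_diag_mul]
  rfl

/-- Nonvanishing coefficients have frequencies in `(3m√-3)⁻¹ O`. -/
theorem exists_nu'_of_ne_zero {ν : S.K} (h : vK S W ν ≠ 0) : ∃ x : EisInt, nu' S x = ν := by
  have hν : ν ≠ 0 := fun h0 => h (by rw [h0, vK_zero])
  have hint : ∀ β : EisInt, ∃ k : ℤ,
      2 * (S.emb (ν * (nK S : S.K)) * (β : ℂ)).re = k := fun β => by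
    obtain ⟨k, hk⟩ := int_trace_of_expansion (F := fun x => phiAvg S φ x (upperTri 1 0 1))
      (a := fun μ : S.Kˣ => vAvg S W (ratId S μ * 1))
      (fun x => hasSum_at_diag hφ hW 1 x)
      (β := ((nK S * S.eK β : 𝓞 S.K) : S.K))
      (fun x => phiAvg_periodic hφ (redG_upperTri (r := 1) (t := 1) (nK_ne_zero S)
        (fun v => by rw [Units.val_one, adele_one_apply, map_one])
        (fun v => by rw [Units.val_one, adele_one_apply, map_one])
        (by simpa using redA_one (nK_ne_zero S)) (redA_zero (nK_ne_zero S))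
        (by simpa using redA_one (nK_ne_zero S))) (S.eK β) x)
      (Units.mk0 ν hν) (by rw [mul_one, ← vK_of_ne S hν]; exact h)
    refine ⟨k, ?_⟩
    have h2 : (Algebra.trace ℚ S.K (ν * ((nK S * S.eK β : 𝓞 S.K) : S.K)) : ℝ) = (k : ℝ) := by
      rw [show Algebra.trace ℚ S.K (ν * ((nK S * S.eK β : 𝓞 S.K) : S.K)) = (k : ℚ) from hk]
      simp
    rw [← h2, S.trace_eq_two_re, RingOfIntegers.coe_eq_algebraMap (nK S * S.eK β), map_mul,
      map_mul, map_mul, map_mul, S.emb_eK, mul_assoc]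
  refine exists_nu'_of_traces S ?_ (hint ⟨omega, Period.omega_mem⟩)
  simpa using hint 1

theorem dCoef_unit (u : EisIntˣ) (x : EisInt) : dCoef S W (u * x) = dCoef S W x := by
  rcases eq_or_ne x 0 with rfl | hx
  · rw [mul_zero]
  have hu : ‖((u : EisInt) : ℂ)‖ = 1 := by
    obtain ⟨N, hN⟩ := Period.exists_natCast_normSq (u : EisInt)
    obtain ⟨M, hM⟩ := Period.exists_natCast_normSq ((u⁻¹ : EisIntˣ) : EisInt)
    have h1 := congrArg (fun z : EisInt => normSq (z : ℂ)) (Units.mul_inv u)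
    simp only [MulMemClass.coe_mul, OneMemClass.coe_one, map_mul, map_one, hN, hM] at h1
    have hN1 : N = 1 := Nat.eq_one_of_mul_eq_one_right (n := M) (by exact_mod_cast h1)
    rw [Complex.norm_def, hN, hN1]; simp
  have hnx : nu' S x ≠ 0 := mt (nu'_eq_zero_iff S x).mp hx
  have hux : nu' S (u * x) ≠ 0 := mt (nu'_eq_zero_iff S _).mp (mul_ne_zero u.ne_zero hx)
  rw [dCoef, dCoef, vK_of_ne S hux, vK_of_ne S hnx]
  congr 1
  · rw [nu'_mul, map_mul, norm_mul, S.emb_eK, hu, one_mul]
  · refine vAvg_congr hφ hW fun v => ?_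
    rw [ratId_apply, ratId_apply, Units.val_mk0, Units.val_mk0, nu'_mul, map_mul, map_mul,
      valued_int, v.intValuation_eq_one_iff.mpr fun hm => v.isPrime.ne_top
        (Ideal.eq_top_of_isUnit_mem _ hm (u.isUnit.map S.eK)), one_mul]

end Descended

end FermatAgent.LT

end
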