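import Mathlib
import Fermat.Agent.LT.Descent.Classical.Coef

set_option autoImplicit false

/-!
# Support, recursion and nonvanishing of the coefficients
-/

noncomputable section

open NumberField IsDedekindDomain WithZero Filter
open scoped Classical

namespace FermatAgent.LT

namespace Descended

variable {S : Setup} {Ψ : S.PsiData} {T : Finset ℕ} {φ : XInf S.K → GAf S.K → ℂ}
  {W : GAf S.K → ℂ}

/-- The places dividing `3m`. -/
def badPlaces (S : Setup) : Set (HeightOneSpectrum (𝓞 S.K)) := {v | nK S ∈ v.asIdeal}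

/-- The characters at the places dividing `3m`. -/
def psiFun (Ψ : S.PsiData) (v : HeightOneSpectrum (𝓞 S.K)) (o : 𝓞 S.K) : ℂ :=
  Ψ v (Ideal.Quotient.mk v.asIdeal o)

/-- The eigenvalue at a place. -/
def eigVal (h : IsDescended S Ψ T φ) (v : HeightOneSpectrum (𝓞 S.K)) : ℝ :=
  if hv : nK S ∈ v.asIdeal then 0 else (h.eigen v hv).choose

theorem coeffData (h : IsDescended S Ψ T φ) (hW : HasExpansion φ W) :
    CoeffData (S.levelIdeal S.K) (badPlaces S) (psiFun Ψ) (fun v => (eigVal h v : ℂ)) φ W where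
  rational := h.cusp.rational
  central := h.cusp.central
  level := h.cusp.level
  expansion := hW
  psi v hv x g o := h.psi v hv x g o
  eigen v hv := by
    have hv' : nK S ∉ v.asIdeal := hv
    rw [eigVal, dif_neg hv']
    exact (h.eigen v hv').choose_spec.1

theorem exists_psiFun_ne_one (hΨ : Ψ.Nontriv) {v : HeightOneSpectrum (𝓞 S.K)}
    (hv : v ∈ badPlaces S) : ∃ o, psiFun Ψ v o ≠ 1 := by
  obtain ⟨c, hc⟩ := AddChar.ne_one_iff.mp (hΨ v hv)
  obtain ⟨o, rfl⟩ := Ideal.Quotient.mk_surjective c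
  exact ⟨o, hc⟩

/-- The support of the coefficients at `3m`. -/
theorem not_dvd_of_ne_zero (h : IsDescended S Ψ T φ) (hΨ : Ψ.Nontriv) (hW : HasExpansion φ W)
    {x : EisInt} (hd : vK S W (nu' S x) ≠ 0) {v : HeightOneSpectrum (𝓞 S.K)}
    (hv : v ∈ badPlaces S) : S.eK x ∉ v.asIdeal := by
  intro hx
  have hν : nu' S x ≠ 0 := fun h0 => hd (by rw [h0, vK_zero])
  rw [vK_of_ne S hν, vAvg_eq] at hd
  obtain ⟨u, -, hu⟩ := Finset.exists_ne_zero_of_sum_ne_zero hd
  set a := ratId S (Units.mk0 (nu' S x) hν) * kId S u * tId S with ha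
  have h1 := (coeffData h hW).charAt_psi (levelIdeal_ne_bot S) hv hu
  obtain ⟨o, ho⟩ := exists_psiFun_ne_one hΨ hv
  have hle : Valued.v ((a : Adf S.K) v) ≤ if v = v3 S then exp (1 : ℤ) else 1 := by
    rw [ha, Units.val_mul, Units.val_mul, adele_mul_apply, adele_mul_apply, map_mul, map_mul,
      ratId_apply, Units.val_mk0, valued_nu', isUnitId_kId S u v, mul_one, valued_tId]
    have hxv : v.intValuation (S.eK x) ≤ exp (-1 : ℤ) :=
      (v.intValuation_le_pow_iff_mem _ 1).mpr (by rwa [pow_one])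
    have hN : 1 ≤ nExp (nK S) v := by
      rw [le_nExp_iff (nK_ne_zero S), pow_one]; exact hv
    split_ifs with hv3
    · rw [hv3, nExp_v3, div_mul_eq_mul_div, div_le_iff₀ (zero_lt_iff.mpr (mul_ne_zero exp_ne_zero exp_ne_zero))]
      subst hv3
      refine (mul_le_mul_left hxv _).trans (le_of_eq ?_)
      rw [← exp_add, ← exp_add, ← exp_add]
      norm_num
    · have hN1 := nExp_le_one S hv3
      rw [mul_one, mul_one, div_le_one₀ (zero_lt_iff.mpr exp_ne_zero)]
      refine hxv.trans ?_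
      rw [exp_le_exp]
      omega
  have h2 := h1 o
  rw [charTrivAt_of_valued_le S v hle o, one_mul] at h2
  exact ho h2

theorem dCoef_supp (h : IsDescended S Ψ T φ) (hΨ : Ψ.Nontriv) (hW : HasExpansion φ W)
    (x : EisInt) (hx : ¬ IsCoprime x ((3 * S.m : ℕ) : EisInt)) : dCoef S W x = 0 := by
  have : IsPrincipalIdealRing EisInt :=
    IsPrincipalIdealRing.of_surjective S.eK.symm.toRingHom S.eK.symm.surjective
  by_contra hd
  obtain ⟨π, hπx, hπn, hπ⟩ : ∃ π, π ∣ x ∧ π ∣ ((3 * S.m : ℕ) : EisInt) ∧ Prime π := by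
    by_contra hh
    push Not at hh
    refine hx (isCoprime_of_prime_dvd (fun hc => ?_) fun π hπ h1 h2 => hh π h1 h2 hπ)
    exact (mul_ne_zero three_ne_zero S.m_squarefree.ne_zero) (Nat.cast_eq_zero.mp hc.2)
  exact not_dvd_of_ne_zero h hΨ hW (right_ne_zero_of_mul hd)
    (v := placeOf S π hπ) ((nK_mem_placeOf S hπ).mpr hπn) ((eK_mem_placeOf S hπ x).mpr hπx)

theorem not_mem_bad {π : EisInt} (hπ : Prime π) (hπn : IsCoprime π ((3 * S.m : ℕ) : EisInt)) :
    placeOf S π hπ ∉ badPlaces S := fun hmem =>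
  hπ.not_isUnit (hπn.isUnit_of_dvd' dvd_rfl ((nK_mem_placeOf S hπ).mp hmem))

/-- The eigenvalue at a prime. -/
def eigPi (h : IsDescended S Ψ T φ) (π : EisInt) : ℝ :=
  if hπ : Prime π then eigVal h (placeOf S π hπ) else 0

theorem vK_hecke (h : IsDescended S Ψ T φ) (hW : HasExpansion φ W) {π : EisInt} (hπ : Prime π)
    (hπn : IsCoprime π ((3 * S.m : ℕ) : EisInt)) {x : EisInt} (hx : x ≠ 0) :
    ((‖(π : ℂ)‖ : ℂ) ^ 2) * vK S W (nu' S x * (S.eK π : S.K)) +
        vK S W (nu' S x / (S.eK π : S.K)) =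
      (‖(π : ℂ)‖ : ℂ) * eigPi h π * vK S W (nu' S x) := by
  set v := placeOf S π hπ with hv
  have hvn : v ∉ badPlaces S := not_mem_bad hπ hπn
  have hv3 : v ≠ v3 S := fun e => hvn (by
    show nK S ∈ v.asIdeal
    rw [nK, Nat.cast_mul]
    exact Ideal.mul_mem_right _ _ (by exact_mod_cast (three_mem_iff S v).mpr e))
  have hπ0 : (S.eK π : S.K) ≠ 0 :=
    RingOfIntegers.coe_ne_zero_iff.mpr ((map_ne_zero_iff _ S.eK.injective).mpr hπ.ne_zero)
  have hν : nu' S x ≠ 0 := mt (nu'_eq_zero_iff S x).mp hx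
  set a := ratId S (Units.mk0 (nu' S x) hν) with ha
  have hCT : ∀ u : (ResK S)ˣ, CharTrivAt v ((a * kId S u * tId S : (Adf S.K)ˣ).val v) := fun u => by
    refine charTrivAt_of_valued_le S v ?_
    rw [if_neg hv3, Units.val_mul, Units.val_mul, adele_mul_apply, adele_mul_apply, map_mul,
      map_mul, ha, ratId_apply, Units.val_mk0, valued_nu', isUnitId_kId S u v, valued_tId,
      if_neg hv3, mul_one, mul_one, mul_one,
      show nExp (nK S) v = 0 from (nExp_eq_zero_iff (nK_ne_zero S) v).mpr hvn]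
    simpa using v.intValuation_le_one (S.eK x)
  have key := Finset.sum_congr (s₁ := (Finset.univ : Finset (ResK S)ˣ)) rfl fun u _ =>
    (coeffData h hW).hecke (levelIdeal_ne_bot S) hvn (hCT u)
  rw [Finset.sum_add_distrib, ← Finset.mul_sum, ← Finset.mul_sum, ← vAvg_eq] at key
  have hval : ∀ w : HeightOneSpectrum (𝓞 S.K),
      Valued.v ((ideleAt v (piLoc v) : Adf S.K) w) = w.intValuation (S.eK π) := fun w => by
    rcases eq_or_ne w v with rfl | hw
    · rw [ideleAt_self]
      change Valued.v (loc v (pi v : S.K)) = _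
      rw [valued_uniformizer]
      exact (v.intValuation_singleton ((map_ne_zero_iff _ S.eK.injective).mpr hπ.ne_zero) rfl).symm
    · rw [ideleAt_of_ne _ hw, map_one, eq_comm, HeightOneSpectrum.intValuation_eq_one_iff]
      exact fun hm => hw (HeightOneSpectrum.ext (v.isMaximal.eq_of_le w.isPrime.ne_top
        ((Ideal.span_singleton_le_iff_mem _).mpr hm)).symm)
  have e1 : ∑ u : (ResK S)ˣ, diagW W (a * kId S u * tId S * ideleAt v (piLoc v)) =
      vK S W (nu' S x * (S.eK π : S.K)) := by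
    rw [vK_of_ne S (mul_ne_zero hν hπ0),
      ← vAvg_congr h.cusp hW (a := a * ideleAt v (piLoc v)) fun w => by
        rw [Units.val_mul, adele_mul_apply, map_mul, hval, ratId_apply, ratId_apply, Units.val_mk0,
          Units.val_mk0, map_mul, map_mul, valued_int],
      vAvg_eq]
    exact Finset.sum_congr rfl fun u _ => congrArg (diagW W) (by ac_rfl)
  have e2 : ∑ u : (ResK S)ˣ, diagW W (a * kId S u * tId S * (ideleAt v (piLoc v))⁻¹) =
      vK S W (nu' S x / (S.eK π : S.K)) := by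
    rw [vK_of_ne S (div_ne_zero hν hπ0),
      ← vAvg_congr h.cusp hW (a := a * (ideleAt v (piLoc v))⁻¹) fun w => by
        have hi : ((ideleAt v (piLoc v))⁻¹ : (Adf S.K)ˣ).val w * (ideleAt v (piLoc v) : Adf S.K) w =
            1 := by rw [← adele_mul_apply, Units.inv_mul, adele_one_apply]
        rw [Units.val_mul, adele_mul_apply, eq_inv_of_mul_eq_one_left hi, map_mul, map_inv₀, hval,
          ratId_apply, ratId_apply, Units.val_mk0, Units.val_mk0, map_div₀, map_div₀, valued_int,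
          div_eq_mul_inv],
      vAvg_eq]
    exact Finset.sum_congr rfl fun u _ => congrArg (diagW W) (by ac_rfl)
  rw [e1, e2, sqrt_absNorm_placeOf, ← vK_of_ne S hν] at key
  have hN : (Nat.card (𝓞 S.K ⧸ v.asIdeal) : ℂ) = (‖(π : ℂ)‖ : ℂ) ^ 2 := by
    rw [← Complex.ofReal_pow, ← Complex.normSq_eq_norm_sq, ← absNorm_placeOf S hπ,
      Ideal.absNorm_apply, Submodule.cardQuot_apply, Complex.ofReal_natCast]
  rw [hN] at key
  rw [eigPi, dif_pos hπ]
  exact key

theorem dCoef_eq (x : EisInt) (π : EisInt) :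
    dCoef S W (π * x) = (‖(π : ℂ)‖ : ℂ) * ‖S.emb (nu' S x)‖ * vK S W (nu' S x * (S.eK π : S.K)) := by
  rw [dCoef, nu'_mul, map_mul, norm_mul, S.emb_eK, mul_comm (S.eK π : S.K)]
  push_cast
  ring

theorem heckeRec (h : IsDescended S Ψ T φ) (hΨ : Ψ.Nontriv) (hW : HasExpansion φ W) :
    HeckeRec ((3 * S.m : ℕ) : EisInt) (dCoef S W) (eigPi h) where
  zero := by
    rw [dCoef, (nu'_eq_zero_iff S 0).mpr rfl, vK_zero, mul_zero]
  unit := dCoef_unit h.cusp hW
  supp := dCoef_supp h hΨ hW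
  rec_one π hπ hπn μ hμ := by
    rcases eq_or_ne μ 0 with rfl | hμ0
    · exact absurd (dvd_zero π) hμ
    have key := vK_hecke h hW hπ hπn hμ0
    have hzero : vK S W (nu' S μ / (S.eK π : S.K)) = 0 := by
      by_contra hne
      obtain ⟨y, hy⟩ := exists_nu'_of_ne_zero h.cusp hW hne
      refine hμ ⟨y, nu'_injective S ?_⟩
      rw [nu'_mul, hy, mul_div_cancel₀ _ (RingOfIntegers.coe_ne_zero_iff.mpr
        ((map_ne_zero_iff _ S.eK.injective).mpr hπ.ne_zero))]
    rw [hzero, add_zero] at key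
    have hn0 : (‖(π : ℂ)‖ : ℂ) ≠ 0 := by
      rw [Ne, Complex.ofReal_eq_zero, norm_eq_zero]
      exact fun h0 => hπ.ne_zero (Subtype.ext h0)
    rw [dCoef_eq, dCoef]
    refine mul_left_cancel₀ hn0 ?_
    linear_combination (‖S.emb (nu' S μ)‖ : ℂ) * key
  rec_two π hπ hπn μ := by
    rcases eq_or_ne μ 0 with rfl | hμ0
    · simp [dCoef, (nu'_eq_zero_iff S 0).mpr rfl, vK_zero]
    have key := vK_hecke h hW hπ hπn (mul_ne_zero hπ.ne_zero hμ0)
    have hπ0 : (S.eK π : S.K) ≠ 0 :=
      RingOfIntegers.coe_ne_zero_iff.mpr ((map_ne_zero_iff _ S.eK.injective).mpr hπ.ne_zero)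
    rw [nu'_mul, mul_div_cancel_left₀ _ hπ0] at key
    have hn0 : (‖(π : ℂ)‖ : ℂ) ≠ 0 := by
      rw [Ne, Complex.ofReal_eq_zero, norm_eq_zero]
      exact fun h0 => hπ.ne_zero (Subtype.ext h0)
    rw [dCoef_eq (π * μ) π, dCoef, dCoef, nu'_mul, map_mul, norm_mul, S.emb_eK]
    push_cast
    refine mul_left_cancel₀ hn0 ?_
    linear_combination (‖(π : ℂ)‖ : ℂ) * (‖S.emb (nu' S μ)‖ : ℂ) * key

theorem exists_same_valuations (a : (Adf S.K)ˣ) :
    ∃ ν : S.Kˣ, ∀ v : HeightOneSpectrum (𝓞 S.K),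
      Valued.v (loc v (ν : S.K)) = Valued.v ((a : Adf S.K) v) := by
  choose g hg using fun v : HeightOneSpectrum (𝓞 S.K) =>
    (IsPrincipalIdealRing.principal v.asIdeal).principal
  have hg0 : ∀ v, (g v : S.K) ≠ 0 := fun v => RingOfIntegers.coe_ne_zero_iff.mpr fun h0 =>
    v.ne_bot (by rw [hg v, h0]; simp)
  have hval : ∀ v w : HeightOneSpectrum (𝓞 S.K),
      Valued.v (loc w (g v : S.K)) = if w = v then exp (-1 : ℤ) else 1 := fun v w => by
    rw [valued_int]
    have hgv : v.asIdeal = Ideal.span {g v} := by rw [hg v, Ideal.submodule_span_eq]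
    split_ifs with hwv
    · subst hwv
      exact w.intValuation_singleton (fun h0 => hg0 w (by simp [h0])) hgv
    · rw [HeightOneSpectrum.intValuation_eq_one_iff]
      exact fun hm => hwv (HeightOneSpectrum.ext (v.isMaximal.eq_of_le w.isPrime.ne_top
        (hgv ▸ (Ideal.span_singleton_le_iff_mem _).mpr hm)).symm)
  have hev := (FiniteAdeleRing.isUnit_iff.mp a.isUnit).2
  rw [eventually_cofinite] at hev
  set s := hev.toFinset with hs
  refine ⟨Units.mk0 (∏ v ∈ s, (g v : S.K) ^ (-log (Valued.v ((a : Adf S.K) v))))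
    (Finset.prod_ne_zero_iff.mpr fun v _ => zpow_ne_zero _ (hg0 v)), fun w => ?_⟩
  rw [Units.val_mk0, map_prod, map_prod]
  have hterm : ∀ v ∈ s, Valued.v (loc w ((g v : S.K) ^ (-log (Valued.v ((a : Adf S.K) v))))) =
      if w = v then Valued.v ((a : Adf S.K) v) else 1 := fun v _ => by
    rw [map_zpow₀, map_zpow₀, hval]
    split_ifs with hwv
    · subst hwv
      rw [← exp_zsmul, smul_eq_mul, show -log (Valued.v ((a : Adf S.K) w)) * -1 =
        log (Valued.v ((a : Adf S.K) w)) by ring]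
      exact exp_log ((Valuation.ne_zero_iff _).mpr ((FiniteAdeleRing.isUnit_iff.mp a.isUnit).1 w))
    · exact one_zpow _
  rw [Finset.prod_congr rfl hterm, Finset.prod_ite_eq]
  split_ifs with hw
  · rfl
  · by_contra hne
    exact hw (hev.mem_toFinset.mpr (Ne.symm hne))

theorem dCoef_one_ne_zero (h : IsDescended S Ψ T φ) (hΨ : Ψ.Nontriv) (hW : HasExpansion φ W) :
    dCoef S W 1 ≠ 0 := by
  have hD := coeffData h hW
  obtain ⟨a, ha⟩ : ∃ a, diagW W a ≠ 0 := by
    by_contra hh
    push Not at hh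
    exact h.ne_zero (hD.eq_zero (levelIdeal_ne_bot S) hh)
  have hterm : ∀ u : (ResK S)ˣ, diagW W (a * (tId S)⁻¹ * kId S u * tId S) ≠ 0 →
      diagW W (a * (tId S)⁻¹ * kId S u * tId S) = diagW W a := by
    intro u hu
    have he : a * (tId S)⁻¹ * kId S u * tId S = a * kId S u := by
      rw [mul_comm (a * _) (kId S u), mul_assoc, mul_assoc, inv_mul_cancel, mul_one, mul_comm]
    rw [he] at hu ⊢
    have hsmall : ((kId S u : (Adf S.K)ˣ) : Adf S.K) - 1 ∈ smallAdeles (eRad S) := by
      intro v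
      rw [adele_sub_apply, adele_one_apply]
      unfold eRad
      split_ifs with hv
      · refine (Valuation.map_sub _ _ _).trans ?_
        simp [isUnitId_kId S u v]
      · have hmem : v ∈ badPlaces S := by
          rw [nExp_eq_zero_iff (nK_ne_zero S), not_not] at hv; exact hv
        have hlt := hD.valued_sub_lt hD (levelIdeal_ne_bot S) hmem (exists_psiFun_ne_one hΨ hmem)
          ha hu
        have hav : Valued.v ((a : Adf S.K) v) ≠ 0 :=
          (Valuation.ne_zero_iff _).mpr ((FiniteAdeleRing.isUnit_iff.mp a.isUnit).1 v)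
        rw [Units.val_mul, adele_mul_apply,
          show (a : Adf S.K) v * (kId S u : Adf S.K) v - (a : Adf S.K) v =
            (a : Adf S.K) v * ((kId S u : Adf S.K) v - 1) by ring, map_mul] at hlt
        have h1 : Valued.v ((kId S u : Adf S.K) v - 1) < 1 := by
          by_contra hge
          exact hlt.not_ge (le_mul_of_one_le_right' (not_lt.mp hge))
        rcases eq_or_ne (Valued.v ((kId S u : Adf S.K) v - 1)) 0 with h0 | h0
        · rw [h0]; exact zero_le
        rw [← exp_log h0, exp_le_exp]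
        rw [← exp_log h0, ← exp_zero, exp_lt_exp] at h1
        omega
    have hk : IsNearOne (eRad S) (upperTri (kId S u) 0 1 : GAf S.K) := by
      refine ⟨fun i j => ?_, fun i j => ?_⟩
      · fin_cases i <;> fin_cases j <;> simp [upperTri, hsmall]
      · rw [upperTri_inv]
        have h2 : (((kId S u)⁻¹ : (Adf S.K)ˣ) : Adf S.K) - 1 ∈ smallAdeles (eRad S) := by
          rw [show (((kId S u)⁻¹ : (Adf S.K)ˣ) : Adf S.K) - 1 =
            -(((kId S u : (Adf S.K)ˣ) : Adf S.K) - 1) * (((kId S u)⁻¹ : (Adf S.K)ˣ) : Adf S.K) by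
              rw [neg_mul, _root_.sub_mul, Units.mul_inv, one_mul, neg_sub]]
          exact mul_mem_smallAdeles (neg_mem hsmall) (isUnitId_kId S u).inv.integral
        fin_cases i <;> fin_cases j <;> simp [upperTri, h2]
    have e : upperTri (a * kId S u) 0 1 = (upperTri a 0 1 * upperTri (kId S u) 0 1 : GAf S.K) :=
      (upperTri_diag_mul S a _).symm
    rw [diagW, diagW, e, diagW_congr h.cusp hW (hk.mem_congrSubgroup (isLevelExp_eRad S))]
  have hk1 : diagW W (a * (tId S)⁻¹ * kId S 1 * tId S) = diagW W a := by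
    have hnear : IsNearOne (nExp (nK S)) (kDiag S 1) := by
      have := (redG_one (nK_ne_zero S)).near (by
        have := redG_kDiag S 1
        rwa [upperTri_one] at this)
      rwa [inv_one, one_mul] at this
    have e : upperTri (a * kId S 1) 0 1 = (upperTri a 0 1 * kDiag S 1 : GAf S.K) :=
      (upperTri_diag_mul S a _).symm
    rw [mul_comm (a * _) (kId S 1), mul_assoc, mul_assoc, inv_mul_cancel, mul_one, mul_comm,
      diagW, diagW, e,
      diagW_congr h.cusp hW ((hnear.anti (eRad_le S)).mem_congrSubgroup (isLevelExp_eRad S))]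
  have hV : vAvg S W (a * (tId S)⁻¹) ≠ 0 := by
    rw [vAvg_eq, ← Finset.sum_filter_ne_zero, Finset.sum_congr rfl fun u hu =>
      hterm u (Finset.mem_filter.mp hu).2, Finset.sum_const, nsmul_eq_mul]
    refine mul_ne_zero (Nat.cast_ne_zero.mpr (Finset.card_ne_zero_of_mem (a := 1)
      (Finset.mem_filter.mpr ⟨Finset.mem_univ _, ?_⟩))) ha
    rw [hk1]
    exact ha
  obtain ⟨ν, hν⟩ := exists_same_valuations (a * (tId S)⁻¹)
  have hvK : vK S W (ν : S.K) ≠ 0 := by
    rw [vK_coe, vAvg_congr h.cusp hW (a' := a * (tId S)⁻¹) fun v => by rw [ratId_apply, hν]]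
    exact hV
  obtain ⟨x, hx⟩ := exists_nu'_of_ne_zero h.cusp hW hvK
  have : IsPrincipalIdealRing EisInt :=
    IsPrincipalIdealRing.of_surjective S.eK.symm.toRingHom S.eK.symm.surjective
  refine (heckeRec h hΨ hW).one_ne_zero (x := x) ?_
  rw [dCoef, hx]
  refine mul_ne_zero ?_ hvK
  rw [Ne, Complex.ofReal_eq_zero, norm_eq_zero, map_eq_zero]
  exact ν.ne_zero

end Descended

end FermatAgent.LT

end
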