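import Mathlib
import Fermat.Agent.LT.Descent.Classical.Recursion
import Fermat.Agent.LT.Period.Frobenius

set_option autoImplicit false

/-!
# The eigenvalues as traces of Frobenius
-/

noncomputable section

open NumberField IsDedekindDomain
open scoped Pointwise
open Complex (normSq)

namespace FermatAgent.LT

local notation "Qb" => AlgebraicClosure ℚ
local notation "GQ" => AlgebraicClosure ℚ ≃ₐ[ℚ] AlgebraicClosure ℚ

attribute [local instance] FermatAgent.RT.isGalois_algClosureRat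

theorem q8Trace_conj (x g : GL (Fin 2) (ZMod 3)) : q8Trace (x * g * x⁻¹) = q8Trace g := by
  have h1 : x * g * x⁻¹ = 1 ↔ g = 1 := conj_eq_one_iff
  have h2 : x * g * x⁻¹ = -1 ↔ g = -1 := by
    rw [mul_inv_eq_iff_eq_mul, neg_one_mul]
    exact ⟨fun h => mul_left_cancel (h.trans (mul_neg_one x).symm), fun h => by rw [h, mul_neg_one]⟩
  simp only [q8Trace, h1, h2]

theorem sq_mem_q8_tuple : ∀ a b c d : ZMod 3, a * d - b * c = 2 →
    (a * a + b * c) + (c * b + d * d) = 0 ∨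
      (a * a + b * c = 1 ∧ a * b + b * d = 0 ∧ c * a + d * c = 0 ∧ c * b + d * d = 1) := by
  decide

theorem sq_mem_quaternionSubgroup {g : GL (Fin 2) (ZMod 3)}
    (h : (g : Matrix (Fin 2) (Fin 2) (ZMod 3)).det = 2) : g ^ 2 ∈ quaternionSubgroup := by
  change IsQ8 _
  rw [Units.val_pow_eq_pow_val, pow_two]
  refine ⟨by rw [Matrix.det_mul, h]; rfl, ?_⟩
  rw [Matrix.det_fin_two] at h
  rcases sq_mem_q8_tuple _ _ _ _ h with h' | ⟨h1, h2, h3, h4⟩
  · left
    simpa [Matrix.trace_fin_two, Matrix.mul_apply, Fin.sum_univ_two] using h'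
  · right; left
    ext i j
    fin_cases i <;> fin_cases j <;>
      simp [Matrix.mul_apply, Fin.sum_univ_two, h1, h2, h3, h4]

/-- The square of a Frobenius element is a Frobenius element for the squared norm. -/
theorem isFrobeniusAt_sq {A : ValuationSubring Qb} {σ : GQ} {p : ℕ} (h : A.IsFrobeniusAt σ p) :
    A.IsFrobeniusAt (σ ^ 2) (p * p) := by
  rw [FermatAgent.GalRep.isFrobeniusAt_iff_forall_mem] at h ⊢
  obtain ⟨hσ, h⟩ := h
  have hA : σ • A = A := MulAction.mem_stabilizer_iff.mp hσ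
  have hmem : ∀ {y : Qb}, y ∈ A → σ y ∈ A := fun {y} hy => by
    have := ValuationSubring.smul_mem_pointwise_smul σ y A hy
    rwa [hA] at this
  refine ⟨Subgroup.pow_mem _ hσ 2, fun z hz => ?_⟩
  rw [pow_two, AlgEquiv.mul_apply, pow_mul]
  have h1 : A.valuation (σ (σ z) - σ z ^ p) < 1 := A.mem_nonunits_iff.mp (h _ (hmem hz))
  have h2 : A.valuation (σ z ^ p - (z ^ p) ^ p) < 1 := by
    obtain ⟨c, hc⟩ := sub_dvd_pow_sub_pow (⟨σ z, hmem hz⟩ : A) (⟨z ^ p, pow_mem hz p⟩ : A) p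
    have e := congrArg (fun y : A => (y : Qb)) hc
    simp only [AddSubgroupClass.coe_sub, SubmonoidClass.coe_pow,
      MulMemClass.coe_mul] at e
    rw [e, map_mul]
    exact mul_lt_one_of_lt_of_le (A.mem_nonunits_iff.mp (h z hz)) (A.valuation_le_one c)
  rw [A.mem_nonunits_iff]
  exact lt_of_le_of_lt (by
    rw [show σ (σ z) - (z ^ p) ^ p = (σ (σ z) - σ z ^ p) + (σ z ^ p - (z ^ p) ^ p) by ring]
    exact A.valuation.map_add _ _) (max_lt h1 h2)

namespace Descended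

open FermatAgent.Duality.Global (Over IsPlace exists_place exists_over)

variable {S : Setup} {Ψ : S.PsiData} {T : Finset ℕ} {φ : XInf S.K → GAf S.K → ℂ}

theorem mem_fixing_K {σ : GQ} (h : S.ρ σ ∈ quaternionSubgroup) : σ ∈ S.K.fixingSubgroup := by
  rw [IntermediateField.mem_fixingSubgroup_iff]
  intro x hx
  exact hx ⟨σ, MonoidHom.mem_ker.mpr (Units.ext h.1)⟩

theorem natCast_mem_placeOf {π : EisInt} (hπ : Prime π) (p : ℕ) :
    (p : 𝓞 S.K) ∈ (placeOf S π hπ).asIdeal ↔ π ∣ (p : EisInt) := by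
  rw [← eK_mem_placeOf S hπ, S.eK_natCast]

theorem not_dvd_level {π : EisInt} {p : ℕ} (hp : p.Prime) (hpn : ¬ p ∣ 3 * S.m)
    (hπp : π ∣ (p : EisInt)) : IsCoprime π ((3 * S.m : ℕ) : EisInt) :=
  (Period.isCoprime_natCast (hp.coprime_iff_not_dvd.mpr hpn)).of_isCoprime_of_dvd_left hπp

theorem eigVal_spec (h : IsDescended S Ψ T φ) {π : EisInt} {p : ℕ} (hπ : Prime π) (hp : p.Prime)
    (hpe : p ∉ T.biUnion Nat.primeFactors) (hpn : ¬ p ∣ 3 * S.m) (hπp : π ∣ (p : EisInt)) :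
    |eigPi h π| ≤ 2 ∧ ∀ σ, IsFrobOver (placeOf S π hπ) σ → S.ρ σ ∈ quaternionSubgroup →
      eigPi h π = (q8Trace (S.ρ σ) : ℝ) := by
  have hv : nK S ∉ (placeOf S π hπ).asIdeal :=
    not_mem_bad hπ (not_dvd_level hp hpn hπp)
  have hT : ∀ q ∈ T, (q : 𝓞 S.K) ∉ (placeOf S π hπ).asIdeal := by
    intro q hq hmem
    rw [natCast_mem_placeOf] at hmem
    have hq0 : q ≠ 0 := fun h0 => h.T_ne_zero (h0 ▸ hq)
    have hnd : ¬ p ∣ q := fun hd =>
      hpe (Finset.mem_biUnion.mpr ⟨q, hq, Nat.mem_primeFactors.mpr ⟨hp, hd, hq0⟩⟩)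
    exact hπ.not_isUnit ((Period.isCoprime_natCast
      (hp.coprime_iff_not_dvd.mpr hnd)).isUnit_of_dvd' hπp hmem)
  rw [eigPi, dif_pos hπ, eigVal, dif_neg hv]
  exact ⟨(h.eigen _ hv).choose_spec.2.1 hT, fun σ hσ hq8 => (h.eigen _ hv).choose_spec.2.2 hT σ hσ hq8⟩

theorem liesOverPrime_of_over {A : ValuationSubring Qb} {v : HeightOneSpectrum (𝓞 S.K)}
    (hA : Over S.K A v) {p : ℕ} (hp : p.Prime) (hpv : (p : 𝓞 S.K) ∈ v.asIdeal) :
    A.LiesOverPrime p := by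
  obtain ⟨ℓ, hℓ, hlA⟩ := hA.1
  rcases eq_or_ne ℓ p with rfl | hne
  · exact hlA
  exfalso
  have h1 := hA.natCast_mem hlA
  obtain ⟨a, b, hab⟩ := ((Int.isCoprime_iff_nat_coprime.2 (by
    simpa using (Nat.coprime_primes hℓ hp).2 hne) : IsCoprime (ℓ : ℤ) (p : ℤ))).map
      (Int.castRingHom (𝓞 S.K))
  simp at hab
  exact v.isPrime.ne_top ((Ideal.eq_top_iff_one _).mpr
    (hab ▸ add_mem (Ideal.mul_mem_left _ a h1) (Ideal.mul_mem_left _ b hpv)))

theorem eigPi_split (h : IsDescended S Ψ T φ) {π : EisInt} {p : ℕ} (hπ : Prime π) (hp : p.Prime)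
    (hpe : p ∉ T.biUnion Nat.primeFactors) (hpn : ¬ p ∣ 3 * S.m) (hπp : π ∣ (p : EisInt))
    (hnorm : normSq (π : ℂ) = p) (hsplit : S.SplitsInF p) {A : ValuationSubring Qb}
    (hA : A.LiesOverPrime p) {σ : GQ} (hσ : A.IsFrobeniusAt σ p) :
    eigPi h π = (q8Trace (S.ρ σ) : ℝ) := by
  obtain ⟨B, hB⟩ := exists_place (K := S.K) (placeOf S π hπ)
  have hBp := liesOverPrime_of_over hB hp ((natCast_mem_placeOf hπ p).mpr hπp)
  obtain ⟨g, hg⟩ := FermatAgent.TW.exists_smul_eq hp hA hBp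
  have hσ' : B.IsFrobeniusAt (g * σ * g⁻¹) p := hg ▸ FermatAgent.GalRep.isFrobeniusAt_conj g hσ
  have hq8 := hsplit B hBp _ hσ'
  have habs : Ideal.absNorm (placeOf S π hπ).asIdeal = p := by
    exact_mod_cast (absNorm_placeOf S hπ).trans hnorm
  have hfr : IsFrobOver (placeOf S π hπ) (g * σ * g⁻¹) :=
    ⟨mem_fixing_K hq8, B, fun x => (hB.mem_iff x).trans B.mem_nonunits_iff.symm, habs.symm ▸ hσ'⟩
  rw [(eigVal_spec h hπ hp hpe hpn hπp).2 _ hfr hq8, map_mul, map_mul, map_inv, q8Trace_conj]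

theorem eigPi_inert (h : IsDescended S Ψ T φ) {p : ℕ} (hp : p.Prime)
    (hpe : p ∉ T.biUnion Nat.primeFactors) (hpn : ¬ p ∣ 3 * S.m) (hp3 : p % 3 = 2)
    {A : ValuationSubring Qb} (hA : A.LiesOverPrime p) {σ : GQ} (hσ : A.IsFrobeniusAt σ p) :
    eigPi h (p : EisInt) = (q8Trace (S.ρ σ ^ 2) : ℝ) := by
  have hπ := Period.prime_of_inert hp hp3
  set v := placeOf S (p : EisInt) hπ with hv
  obtain ⟨P, hP⟩ := exists_over (K := S.K) (A := A) ⟨p, hp, hA⟩
  have hPv : P = v := HeightOneSpectrum.ext (v.isMaximal.eq_of_le P.isPrime.ne_top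
    ((Ideal.span_singleton_le_iff_mem _).mpr (by rw [S.eK_natCast]; exact hP.natCast_mem hA))).symm
  subst hPv
  have hdet : ((S.ρ σ : GL (Fin 2) (ZMod 3)) : Matrix (Fin 2) (Fin 2) (ZMod 3)).det = 2 := by
    obtain ⟨x, hx⟩ := Period.exists_conj_frobImage S (p := ⟨p, hp⟩) hpn hA hσ
    rw [hx, ← Matrix.GeneralLinearGroup.val_det_apply, map_mul, map_mul, map_inv,
      mul_comm (Matrix.GeneralLinearGroup.det x), mul_assoc, mul_inv_cancel, mul_one,
      Matrix.GeneralLinearGroup.val_det_apply,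
      Period.det_frobImage S.det_eq (p := ⟨p, hp⟩) (fun e => by change p = 3 at e; omega)]
    change ((p : ℕ) : ZMod 3) = 2
    rw [← ZMod.natCast_mod, hp3]
    rfl
  have hq8 : S.ρ (σ ^ 2) ∈ quaternionSubgroup := by
    rw [map_pow]; exact sq_mem_quaternionSubgroup hdet
  have habs : Ideal.absNorm (placeOf S (p : EisInt) hπ).asIdeal = p * p := by
    have e := absNorm_placeOf S hπ
    rw [show ((p : EisInt) : ℂ) = ((p : ℕ) : ℂ) from map_natCast EisInt.subtype p,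
      Complex.normSq_natCast] at e
    exact_mod_cast e
  have hfr : IsFrobOver (placeOf S (p : EisInt) hπ) (σ ^ 2) :=
    ⟨mem_fixing_K hq8, A, fun x => (hP.mem_iff x).trans A.mem_nonunits_iff.symm,
      habs.symm ▸ isFrobeniusAt_sq hσ⟩
  rw [(eigVal_spec h hπ hp hpe hpn dvd_rfl).2 _ hfr hq8, map_pow]

end Descended

end FermatAgent.LT

end
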