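import Mathlib
import Fermat.Agent.LT.Descent.Classical.Recursion

set_option autoImplicit false

/-!
# The classical function on `H3 × GL₂(O/3m)`: invariance, expansion, cuspidality and decay
-/

noncomputable section

open NumberField IsDedekindDomain WithZero Filter MeasureTheory Set
open scoped Classical Real

namespace FermatAgent.LT

namespace Descended

open BoxFourier FermatAgent.LT.Dihedral

variable (S : Setup)

theorem map_eisIdeal : Ideal.span {nK S} = (eisIdeal (3 * S.m)).map S.eK.toRingHom := by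
  rw [eisIdeal, Ideal.map_span, Set.image_singleton]
  exact congrArg (fun x => Ideal.span {x}) (S.eK_natCast (3 * S.m)).symm

/-- The identification of the residue rings. -/
def resEquiv : (EisInt ⧸ eisIdeal (3 * S.m)) ≃+* ResK S :=
  Ideal.quotientEquiv _ _ S.eK (map_eisIdeal S)

theorem resEquiv_mk (x : EisInt) :
    resEquiv S (Ideal.Quotient.mk _ x) = Ideal.Quotient.mk _ (S.eK x) := rfl

/-- Residue matrices over the integers of `K`. -/
def toResG : GL (Fin 2) (EisInt ⧸ eisIdeal (3 * S.m)) →* GL (Fin 2) (ResK S) :=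
  Matrix.GeneralLinearGroup.map (resEquiv S).toRingHom

/-- An integral adelic lift of a residue matrix. -/
def kMat (h : GL (Fin 2) (EisInt ⧸ eisIdeal (3 * S.m))) : GAf S.K :=
  (exists_redG (nK_ne_zero S) (toResG S h)).choose

theorem redG_kMat (h : GL (Fin 2) (EisInt ⧸ eisIdeal (3 * S.m))) :
    RedG (nK S) (kMat S h) (toResG S h) :=
  (exists_redG (nK_ne_zero S) (toResG S h)).choose_spec.1

theorem kMat_apply_of_good (h : GL (Fin 2) (EisInt ⧸ eisIdeal (3 * S.m)))
    {v : HeightOneSpectrum (𝓞 S.K)} (hv : nExp (nK S) v = 0) (i j : Fin 2) :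
    kMat S h i j v = if i = j then 1 else 0 :=
  (exists_redG (nK_ne_zero S) (toResG S h)).choose_spec.2 v i j hv

/-- The classical function, unnormalised. -/
def phiCl (φ : XInf S.K → GAf S.K → ℂ) (P : H3) (h : GL (Fin 2) (EisInt ⧸ eisIdeal (3 * S.m))) :
    ℂ :=
  phiAvg S φ (fun _ => P) (kMat S h)

theorem toResG_diagMat (d : (EisInt ⧸ eisIdeal (3 * S.m))ˣ) :
    toResG S (diagMat d) = upperTri (Units.map (resEquiv S).toRingHom.toMonoidHom d) 0 1 := by
  refine Units.ext (Matrix.ext fun i j => ?_)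
  fin_cases i <;> fin_cases j <;>
    simp [toResG, diagMat, upperTri, Matrix.GeneralLinearGroup.map_apply]

theorem waveProd_const (ν : S.K) (P : H3) :
    waveProd ν (fun _ => P) = (‖S.emb ν‖ : ℂ) * H3.wave (S.emb ν) P := by
  rw [waveProd, Fintype.prod_unique]
  rfl

theorem hshift_const (P : H3) (c : InfinitePlace S.K → ℂ) :
    hshift (fun _ => P) c = fun _ => (⟨P.z + c default, P.t, P.t_pos⟩ : H3) := by
  funext w
  rw [Subsingleton.elim w default]
  exact H3.ext rfl rfl

theorem linearIndependent_basis :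
    LinearIndependent ℚ ![(nK S : S.K), (nK S : S.K) * (S.eK ⟨omega, Period.omega_mem⟩ : S.K)] := by
  refine LinearIndependent.pair_iff.mpr fun s t hst => ?_
  have h1 := congrArg S.emb hst
  rw [map_add, map_zero, Rat.smul_def, Rat.smul_def, map_mul, map_mul, map_mul, map_ratCast,
    map_ratCast, S.emb_eK] at h1
  have hn : S.emb (nK S : S.K) = ((3 * S.m : ℕ) : ℂ) := by simp [nK, map_ofNat]
  rw [hn] at h1
  have h3 : ((3 * S.m : ℕ) : ℂ) * ((s : ℂ) + (t : ℂ) * omega) = 0 := by linear_combination h1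
  have h4 := (mul_eq_zero.mp h3).resolve_left
    (Nat.cast_ne_zero.mpr (mul_ne_zero three_ne_zero S.m_squarefree.ne_zero))
  have him := congrArg Complex.im h4
  have hre := congrArg Complex.re h4
  simp [omega] at him hre
  subst him
  simp at hre
  exact ⟨hre, rfl⟩

/-- The periods `3m, 3m ω`. -/
def perBasis : Module.Basis (Fin 2) ℚ S.K :=
  basisOfLinearIndependentOfCardEqFinrank (linearIndependent_basis S)
    (by rw [Fintype.card_fin, S.finrank_K])

theorem perBasis_zero : perBasis S 0 = ((nK S * 1 : 𝓞 S.K) : S.K) := by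
  simp [perBasis]

theorem perBasis_one :
    perBasis S 1 = ((nK S * S.eK ⟨omega, Period.omega_mem⟩ : 𝓞 S.K) : S.K) := by
  simp [perBasis]

theorem iotaX_perBasis (y : Fin 2 → ℝ) :
    iotaX (perBasis S) y default =
      ((3 * S.m : ℕ) : ℂ) * ((y 0 : ℂ) + (y 1 : ℂ) * omega) := by
  rw [iotaX_apply, Fin.sum_univ_two, perBasis_zero, perBasis_one]
  change (y 0 : ℂ) * S.emb _ + (y 1 : ℂ) * S.emb _ = _
  rw [RingOfIntegers.coe_eq_algebraMap, RingOfIntegers.coe_eq_algebraMap, map_mul, map_mul, map_mul,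
    map_mul, map_one, map_one, S.emb_eK]
  simp [nK, map_ofNat]
  ring

theorem integral_box_fin_two (f : ℝ × ℝ → ℂ) :
    ∫ y in boxAt (0 : Fin 2 → ℤ), f (y 0, y 1) = ∫ p in Icc (0 : ℝ) 1 ×ˢ Icc (0 : ℝ) 1, f p := by
  have hset : boxAt (0 : Fin 2 → ℤ) =
      (MeasurableEquiv.finTwoArrow (α := ℝ)) ⁻¹' (Ioc (0 : ℝ) 1 ×ˢ Ioc (0 : ℝ) 1) := by
    ext y
    simp [boxAt, Fin.forall_fin_two]
  rw [hset]
  rw [show (fun y : Fin 2 → ℝ => f (y 0, y 1)) =
    fun y => f ((MeasurableEquiv.finTwoArrow (α := ℝ)) y) from rfl,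
    (volume_preserving_finTwoArrow ℝ).setIntegral_preimage_emb
      (MeasurableEquiv.measurableEmbedding _)]
  refine setIntegral_congr_set ?_
  rw [Measure.volume_eq_prod]
  exact Measure.set_prod_ae_eq Ioc_ae_eq_Icc Ioc_ae_eq_Icc

variable {S} {φ : XInf S.K → GAf S.K → ℂ} (hφ : IsCuspFn (S.levelIdeal S.K) φ)
  {W : GAf S.K → ℂ} (hW : HasExpansion φ W)
include hφ

theorem phiCl_invariant (γ : GL (Fin 2) EisInt) (P : H3)
    (h : GL (Fin 2) (EisInt ⧸ eisIdeal (3 * S.m))) :
    phiCl S φ (cplxMat γ • P) (redMat _ γ * h) = phiCl S φ P h := by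
  set γK : GL (Fin 2) (𝓞 S.K) := Matrix.GeneralLinearGroup.map S.eK.toRingHom γ with hγK
  set γF : GL (Fin 2) S.K := Matrix.GeneralLinearGroup.map (algebraMap (𝓞 S.K) S.K) γK with hγF
  have hx : (fun _ : InfinitePlace S.K => cplxMat γ • P) = infAct γF (fun _ => P) := by
    funext w
    rw [infAct]
    congr 1
    refine Units.ext (Matrix.ext fun i j => ?_)
    rw [Matrix.GeneralLinearGroup.map_apply, S.embedding_eq, hγF,
      Matrix.GeneralLinearGroup.map_apply, hγK, Matrix.GeneralLinearGroup.map_apply]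
    exact (S.emb_eK (γ i j)).symm
  have hred : RedG (nK S) (rationalMat γF * kMat S h) (toResG S (redMat _ γ * h)) := by
    rw [map_mul]
    refine RedG.mul (nK_ne_zero S) ?_ (redG_kMat S h)
    have e : toResG S (redMat _ γ) = Matrix.GeneralLinearGroup.map (Ideal.Quotient.mk _) γK := by
      refine Units.ext (Matrix.ext fun i j => ?_)
      simp [toResG, redMat, hγK, Matrix.GeneralLinearGroup.map_apply, resEquiv_mk]
    rw [e]
    exact redG_rationalMat (nK_ne_zero S) γK
  rw [phiCl, phiCl, hx, ← phiAvg_congr hφ hred (redG_kMat S _), phiAvg_rational hφ]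

theorem phiCl_scalar (a : (EisInt ⧸ eisIdeal (3 * S.m))ˣ) (P : H3)
    (h : GL (Fin 2) (EisInt ⧸ eisIdeal (3 * S.m))) :
    phiCl S φ P (h * Matrix.GeneralLinearGroup.scalar (Fin 2) a) = phiCl S φ P h := by
  set a' : (ResK S)ˣ := Units.map (resEquiv S).toRingHom.toMonoidHom a with ha'
  have hred : RedG (nK S) (kMat S h * upperTri (kId S a') 0 (kId S a'))
      (toResG S (h * Matrix.GeneralLinearGroup.scalar (Fin 2) a)) := by
    rw [map_mul, scalar_eq_upperTri, toResG, map_upperTri, map_zero]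
    exact (redG_kMat S h).mul (nK_ne_zero S) (redG_upperTri (nK_ne_zero S) (isUnitId_kId S a')
      (isUnitId_kId S a') (redA_kId S a') (redA_zero (nK_ne_zero S)) (redA_kId S a'))
  rw [phiCl, phiCl, ← phiAvg_congr hφ hred (redG_kMat S _), phiAvg_central hφ]

theorem phiCl_continuous (h : GL (Fin 2) (EisInt ⧸ eisIdeal (3 * S.m))) :
    Continuous fun P => phiCl S φ P h :=
  (phiAvg_continuous hφ _).comp (continuous_pi fun _ => continuous_id)

theorem phiCl_bounded : ∃ C, ∀ P h, ‖phiCl S φ P h‖ ≤ C := by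
  obtain ⟨C, hC⟩ := phiAvg_bounded hφ
  exact ⟨C, fun P h => hC _ _⟩

theorem phiCl_sph0 (h : GL (Fin 2) (EisInt ⧸ eisIdeal (3 * S.m))) :
    H3.IsSph0 fun P => phiCl S φ P h := by
  have h0 := phiAvg_sph0 hφ default (fun _ => default) (kMat S h)
  convert h0 using 1
  funext P
  rw [phiCl]
  congr 1
  funext w
  rw [Subsingleton.elim w default, Function.update_self]

theorem phiCl_periodic (h : GL (Fin 2) (EisInt ⧸ eisIdeal (3 * S.m))) (j : Fin 2) (x : XInf S.K) :
    phiAvg S φ (hshift x (embVec (perBasis S j))) (kMat S h) = phiAvg S φ x (kMat S h) := by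
  fin_cases j
  · simp only [Fin.zero_eta, perBasis_zero]
    exact phiAvg_periodic hφ (redG_kMat S h) 1 x
  · simp only [Fin.mk_one, perBasis_one]
    exact phiAvg_periodic hφ (redG_kMat S h) _ x

include hW

theorem phiCl_box (h : GL (Fin 2) (EisInt ⧸ eisIdeal (3 * S.m))) (x : XInf S.K) :
    ∫ y in boxAt 0, phiAvg S φ (hshift x (iotaX (perBasis S) y)) (kMat S h) = 0 :=
  integral_box_eq_zero_of_expansion (F := fun x => phiAvg S φ x (kMat S h))
    (fun y => phiAvg_expansion hφ hW y (kMat S h)) (phiCl_periodic hφ h) x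

theorem phiCl_cuspidal (t : ℝ) (ht : 0 < t) (h : GL (Fin 2) (EisInt ⧸ eisIdeal (3 * S.m))) :
    ∫ xy in Icc (0 : ℝ) 1 ×ˢ Icc (0 : ℝ) 1,
      phiCl S φ ⟨((3 * S.m : ℕ) : ℂ) * (xy.1 + xy.2 * omega), t, ht⟩ h = 0 := by
  rw [← integral_box_fin_two, ← phiCl_box hφ hW h fun _ => ⟨0, t, ht⟩]
  refine setIntegral_congr_fun (measurableSet_boxAt 0) fun y _ => ?_
  simp only [phiCl, hshift_const, iotaX_perBasis, zero_add]

theorem phiCl_expansion (d : (EisInt ⧸ eisIdeal (3 * S.m))ˣ) (P : H3) :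
    HasSum (fun x : EisInt => dCoef S W x *
      H3.wave ((x : ℂ) / (((3 * S.m : ℕ) : ℂ) * (1 + 2 * omega))) P)
      (phiCl S φ P (diagMat d)) := by
  set d' : (ResK S)ˣ := Units.map (resEquiv S).toRingHom.toMonoidHom d
  have e : phiCl S φ P (diagMat d) = phiAvg S φ (fun _ => P) (kDiag S d') :=
    phiAvg_congr hφ (by rw [← toResG_diagMat]; exact redG_kMat S _) (redG_kDiag S d') _
  rw [e]
  have h1 : HasSum (fun ν : S.Kˣ => vK S W (ν : S.K) * waveProd (ν : S.K) (fun _ => P))
      (phiAvg S φ (fun _ => P) (kDiag S d')) := by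
    refine (hasSum_at_diag hφ hW (kId S d') fun _ => P).congr_fun fun ν => ?_
    rw [vK_coe, vAvg_mul_unit hφ hW _ (isUnitId_kId S d')]
  have h2 := (hasSum_units_iff (f := fun v : S.K => vK S W v * waveProd v (fun _ => P))
    (by rw [vK_zero, zero_mul])).mp h1
  refine ((hasSum_range_iff (f := fun v : S.K => vK S W v * waveProd v (fun _ => P))
    (nu'_injective S) fun v hv => ?_).mpr h2).congr_fun fun x => ?_
  · by_contra hne
    exact hv (exists_nu'_of_ne_zero hφ hW (left_ne_zero_of_mul hne))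
  · rw [waveProd_const, dCoef, ← emb_nu']
    ring

theorem phiCl_decay (h : GL (Fin 2) (EisInt ⧸ eisIdeal (3 * S.m))) :
    ∃ C, ∀ P : H3, 1 ≤ P.t → ‖phiCl S φ P h‖ ≤ C / P.t := by
  have hb := periodicEigen_of (φ := phiAvg S φ) (phiAvg_continuous hφ) (phiAvg_bounded hφ)
    (phiAvg_sph0 hφ) (phiCl_periodic hφ h)
  have hzero : ∀ x, coefX (perBasis S) (fun x => phiAvg S φ x (kMat S h)) 0 x = 0 := fun x => by
    simpa [coefX, boxCoeff, phaseVec_zero, torusFn] using phiCl_box hφ hW h x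
  obtain ⟨C, hC⟩ := exists_coefW_bound hb
  set D : ℝ := 1 / ‖((3 * S.m : ℕ) : ℂ) * (1 + 2 * omega)‖ with hD
  have hden : ((3 * S.m : ℕ) : ℂ) * (1 + 2 * omega) ≠ 0 :=
    mul_ne_zero (Nat.cast_ne_zero.mpr (mul_ne_zero three_ne_zero S.m_squarefree.ne_zero))
      (by rw [← coe_deltaE]; exact fun h0 => deltaE_ne_zero (Subtype.ext h0))
  have hD0 : 0 < D := one_div_pos.mpr (norm_pos_iff.mpr hden)
  have hlow : ∀ k, k ≠ 0 → D ≤ ‖S.emb (freq (perBasis S) k)‖ := by
    intro k hk
    have ht : ∀ j, ∃ i : ℤ, 2 * (S.emb (freq (perBasis S) k * perBasis S j)).re = i := fun j =>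
      ⟨k j, by rw [← S.trace_eq_two_re, freq, trace_dualVec_mul]; simp⟩
    obtain ⟨x, hx⟩ := exists_nu'_of_traces S (ν := freq (perBasis S) k)
      (by simpa [perBasis_zero] using ht 0)
      (by simpa [perBasis_one, map_mul, S.emb_eK, mul_assoc] using ht 1)
    have hx0 : x ≠ 0 := fun h0 => hk (freq_eq_zero_iff.mp (by rw [← hx, h0, (nu'_eq_zero_iff S 0).mpr rfl]))
    rw [← hx, emb_nu', norm_div, hD]
    refine div_le_div_of_nonneg_right ?_ (norm_nonneg _)
    rw [← Real.sqrt_one]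
    exact (Real.sqrt_le_sqrt (Period.one_le_normSq hx0)).trans_eq (Complex.norm_def _).symm
  set r₀ : ℝ := 4 * π * D with hr₀
  have hr0 : 0 < r₀ := by positivity
  set x₁ : XInf S.K := fun _ => (⟨0, 1, one_pos⟩ : H3) with hx₁
  refine ⟨|C| * (2 * Real.exp r₀ / r₀ ^ 2) * ∑' k, ‖waveProd (freq (perBasis S) k) x₁‖,
    fun P hP => ?_⟩
  have hterm : ∀ k, ‖coefW (perBasis S) (fun x => phiAvg S φ x (kMat S h)) k *
      waveProd (freq (perBasis S) k) (fun _ => P)‖ ≤
      |C| * (2 * Real.exp r₀ / r₀ ^ 2 / P.t) * ‖waveProd (freq (perBasis S) k) x₁‖ := by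
    intro k
    rcases eq_or_ne k 0 with rfl | hk
    · rw [freq_eq_zero_iff.mpr rfl, waveProd_zero, waveProd_zero]
      simp
    rw [norm_mul, mul_assoc]
    refine mul_le_mul ((hC k hk).trans (le_abs_self C)) ?_ (norm_nonneg _) (abs_nonneg C)
    have ht0 : 0 < P.t := by linarith
    set a : ℝ := ‖S.emb (freq (perBasis S) k)‖ with ha
    have ha0 : 0 < a := hD0.trans_le (hlow k hk)
    rw [norm_waveProd, norm_waveProd, Fintype.prod_unique, Fintype.prod_unique]
    rw [show ((default : InfinitePlace S.K).embedding (freq (perBasis S) k)) =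
      S.emb (freq (perBasis S) k) from rfl, ← ha]
    simp only [hx₁, one_mul, mul_one]
    have hK := H3.besselK0_le_exp (r₀ := 4 * π * a) (r := 4 * π * a * P.t) (by positivity)
      (le_mul_of_one_le_right (by positivity) hP)
    have hexp : Real.exp (-(4 * π * a * P.t - 4 * π * a)) ≤ Real.exp (-(r₀ * P.t - r₀)) := by
      refine Real.exp_le_exp.mpr ?_
      have : 0 ≤ (4 * π * a - r₀) * (P.t - 1) :=
        mul_nonneg (sub_nonneg.mpr (mul_le_mul_of_nonneg_left (hlow k hk) (by positivity)))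
          (by linarith)
      linarith
    have hmain : P.t * Real.exp (-(r₀ * P.t - r₀)) ≤ 2 * Real.exp r₀ / r₀ ^ 2 / P.t := by
      have hq := Real.quadratic_le_exp_of_nonneg (show 0 ≤ r₀ * P.t by positivity)
      rw [neg_sub, Real.exp_sub, div_div, mul_div_assoc',
        div_le_div_iff₀ (Real.exp_pos _) (by positivity)]
      have h2 : (r₀ * P.t) ^ 2 / 2 ≤ Real.exp (r₀ * P.t) := by nlinarith
      nlinarith [Real.exp_pos r₀]
    have hKpos := (H3.besselK0_pos (show 0 < 4 * π * a by positivity)).le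
    calc a * (P.t * H3.besselK0 (4 * π * a * P.t))
        ≤ a * (P.t * (Real.exp (-(r₀ * P.t - r₀)) * H3.besselK0 (4 * π * a))) := by
          refine mul_le_mul_of_nonneg_left (mul_le_mul_of_nonneg_left (hK.trans ?_) ht0.le) ha0.le
          exact mul_le_mul_of_nonneg_right hexp hKpos
      _ = P.t * Real.exp (-(r₀ * P.t - r₀)) * (a * H3.besselK0 (4 * π * a)) := by ring
      _ ≤ _ := mul_le_mul_of_nonneg_right hmain (mul_nonneg ha0.le hKpos)
  rw [phiCl, ← (hb.hasSum_coefW hzero fun _ => P).tsum_eq]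
  have hs := (summable_norm_waveProd_freq (perBasis S) x₁).mul_left
    (|C| * (2 * Real.exp r₀ / r₀ ^ 2 / P.t))
  refine (tsum_of_norm_bounded hs.hasSum hterm).trans (le_of_eq ?_)
  rw [tsum_mul_left]
  ring

end Descended

end FermatAgent.LT

end
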