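import Mathlib
import Fermat.Agent.LT.Descent.Classical.Translate

set_option autoImplicit false

/-!
# The classical Hecke operator at a prime of degree one
-/

noncomputable section

open NumberField IsDedekindDomain WithZero Filter
open scoped Classical
open Complex (normSq)

namespace FermatAgent.LT

namespace Descended

variable {S : Setup} {φ : XInf S.K → GAf S.K → ℂ}

theorem phiAvg_eigen {v : HeightOneSpectrum (𝓞 S.K)} (hv : nExp (nK S) v = 0) (hv3 : v ≠ v3 S)
    {l : ℂ} (h : IsEigenAt v φ l) : IsEigenAt v (phiAvg S φ) l := by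
  intro x g
  have : Finite (𝓞 S.K ⧸ v.asIdeal) := Ideal.finiteQuotientOfFreeOfNeBot _ v.ne_bot
  let _ := Fintype.ofFinite (𝓞 S.K ⧸ v.asIdeal)
  have hc : ∀ (M : GL (Fin 2) (v.adicCompletion S.K)) (u : (ResK S)ˣ),
      g * atPlace v M * kDiag S u * tMat S = g * kDiag S u * tMat S * atPlace v M := by
    intro M u
    have h1 : ∀ i j, kDiag S u i j v = if i = j then 1 else 0 := fun i j => by
      fin_cases i <;> fin_cases j <;> simp [kDiag, upperTri, kId_apply_of_good S u hv, adele_zero_apply, adele_one_apply]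
    have h2 : ∀ i j, tMat S i j v = if i = j then 1 else 0 := fun i j => by
      fin_cases i <;> fin_cases j <;>
        simp [tMat, upperTri, tId, ideleAt_of_ne _ hv3, adele_zero_apply, adele_one_apply]
    rw [mul_assoc g, Dihedral.atPlace_comm M h1, ← mul_assoc, mul_assoc _ (atPlace v M),
      Dihedral.atPlace_comm M h2, ← mul_assoc]
  simp only [heckeT, finsum_eq_sum_of_fintype, phiAvg, hc]
  rw [Finset.sum_comm, ← Finset.sum_add_distrib, Finset.mul_sum]
  refine Finset.sum_congr rfl fun u _ => ?_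
  have h1 := h x (g * kDiag S u * tMat S)
  rwa [heckeT, finsum_eq_sum_of_fintype] at h1

theorem redA_of_eq_off {v : HeightOneSpectrum (𝓞 S.K)} (hv : nExp (nK S) v = 0) {X : Adf S.K}
    {o : 𝓞 S.K} (hoff : ∀ w, w ≠ v → X w = loc w (o : S.K)) (hint : Valued.v (X v) ≤ 1) :
    RedA (nK S) X (Ideal.Quotient.mk _ o) := by
  refine RedA.of_rep (nK_ne_zero S) fun w => ?_
  rw [adele_sub_apply, adele_algebraMap_apply]
  rcases eq_or_ne w v with rfl | hw
  · rw [hv]
    refine (Valuation.map_sub _ _ _).trans (max_le (hint.trans (by simp)) ?_)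
    rw [valued_int]
    simpa using w.intValuation_le_one o
  · rw [hoff w hw, sub_self, map_zero]
    exact zero_le

/-- A rational element of valuation one over the uniformizer at its place. -/
theorem isUnitId_mul_inv {π : 𝓞 S.K} (hπ : π ≠ 0) {v : HeightOneSpectrum (𝓞 S.K)}
    (hv : v.asIdeal = Ideal.span {π}) (c : S.Kˣ) (hc : (c : S.K) = (π : S.K)) :
    IsUnitId (ratId S c * ideleAt v (piLoc v)⁻¹) := by
  intro w
  rw [Units.val_mul, adele_mul_apply, map_mul, ratId_apply, hc, valued_int]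
  by_cases hw : w = v
  · subst hw
    rw [ideleAt_self, Units.val_inv_eq_inv_val, map_inv₀]
    change w.intValuation π * (Valued.v (loc w (pi w : S.K)))⁻¹ = 1
    rw [valued_uniformizer, w.intValuation_singleton hπ hv]
    exact mul_inv_cancel₀ exp_ne_zero
  · rw [ideleAt_of_ne _ hw, map_one, mul_one, HeightOneSpectrum.intValuation_eq_one_iff]
    exact fun hm => hw (HeightOneSpectrum.ext (v.isMaximal.eq_of_le w.isPrime.ne_top
      (hv ▸ (Ideal.span_singleton_le_iff_mem _).mpr hm)).symm)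

theorem redA_mul_inv {π : 𝓞 S.K} (hπ : π ≠ 0) {v : HeightOneSpectrum (𝓞 S.K)}
    (hv : v.asIdeal = Ideal.span {π}) (hev : nExp (nK S) v = 0) (c : S.Kˣ)
    (hc : (c : S.K) = (π : S.K)) :
    RedA (nK S) ((ratId S c * ideleAt v (piLoc v)⁻¹ : (Adf S.K)ˣ) : Adf S.K)
      (Ideal.Quotient.mk _ π) := by
  refine redA_of_eq_off hev (fun w hw => ?_) (isUnitId_mul_inv hπ hv c hc v).le
  rw [Units.val_mul, adele_mul_apply, ratId_apply, hc, ideleAt_of_ne _ hw, mul_one]

theorem updAt_zero (v : HeightOneSpectrum (𝓞 S.K)) : updAt v (0 : v.adicCompletion S.K) 0 = 0 := by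
  refine FiniteAdeleRing.ext _ fun w => ?_
  by_cases hw : w = v
  · subst hw; rw [updAt_self]; rfl
  · rw [updAt_of_ne _ _ _ hw]; simp [adele_zero_apply]

theorem residues_bijective {π : EisInt} {p : ℕ} (hπ : Prime π) (hp : p.Prime)
    (hnorm : normSq (π : ℂ) = p) :
    Function.Bijective fun k : Fin p =>
      Ideal.Quotient.mk (placeOf S π hπ).asIdeal (-(S.eK (((k : ℕ) : EisInt)))) := by
  have hmem : ∀ z : EisInt, S.eK z ∈ (placeOf S π hπ).asIdeal ↔ π ∣ z := eK_mem_placeOf S hπ
  constructor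
  · intro k k' hk
    rw [Ideal.Quotient.eq, ← map_neg, ← map_neg, ← map_sub, hmem] at hk
    have h1 : π ∣ (((k' : ℕ) : ℤ) - (k : ℕ) : ℤ) := by
      push_cast
      convert hk using 1
      ring
    rw [Period.dvd_intCast_iff hp hnorm] at h1
    have := Int.eq_zero_of_dvd_of_natAbs_lt_natAbs h1 (by omega)
    exact Fin.ext (by omega)
  · intro r
    obtain ⟨o, rfl⟩ := Ideal.Quotient.mk_surjective r
    obtain ⟨z, rfl⟩ := S.eK.surjective o
    obtain ⟨n, hn⟩ := Period.exists_intCast_sub hp hnorm z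
    have hlt : ((-n) % (p : ℤ)).toNat < p := by
      have := Int.emod_lt_of_pos (-n) (by exact_mod_cast hp.pos : (0 : ℤ) < p)
      have := Int.emod_nonneg (-n) (by exact_mod_cast hp.ne_zero : (p : ℤ) ≠ 0)
      omega
    refine ⟨⟨_, hlt⟩, ?_⟩
    rw [Ideal.Quotient.eq, ← map_neg, ← map_sub, hmem]
    have hd : π ∣ ((-n - (((-n) % (p : ℤ)).toNat : ℕ) : ℤ) : EisInt) := by
      rw [Period.dvd_intCast_iff hp hnorm, Int.toNat_of_nonneg
        (Int.emod_nonneg (-n) (by exact_mod_cast hp.ne_zero : (p : ℤ) ≠ 0))]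
      exact Int.dvd_self_sub_emod
    have h2 := dvd_sub hd hn
    push_cast at h2 ⊢
    convert h2 using 1
    ring

variable (hφ : IsCuspFn (S.levelIdeal S.K) φ)
include hφ

theorem phiCl_smul_eq (γ : GL (Fin 2) S.K) (G : GL (Fin 2) ℂ)
    (hG : ∀ i j, G i j = S.emb (γ i j)) {h m : GL (Fin 2) (EisInt ⧸ eisIdeal (3 * S.m))}
    {v : HeightOneSpectrum (𝓞 S.K)} (hv : nExp (nK S) v = 0)
    (M : GL (Fin 2) (v.adicCompletion S.K))
    (hred : RedG (nK S) (rationalMat γ * (atPlace v M *
      upperTri (ideleAt v (piLoc v)⁻¹) 0 (ideleAt v (piLoc v)⁻¹))) (toResG S m))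
    (P : H3) :
    phiCl S φ (G • P) (m * h) = phiAvg S φ (fun _ => P) (kMat S h * atPlace v M) := by
  have hx : (fun _ : InfinitePlace S.K => G • P) = infAct γ (fun _ => P) := by
    funext w
    rw [infAct]
    congr 1
    refine Units.ext (Matrix.ext fun i j => ?_)
    rw [Matrix.GeneralLinearGroup.map_apply, S.embedding_eq]
    exact hG i j
  set Z : GAf S.K := upperTri (ideleAt v (piLoc v)⁻¹) 0 (ideleAt v (piLoc v)⁻¹) with hZ
  have hZ' : Z = atPlace v (upperTri (piLoc v)⁻¹ 0 (piLoc v)⁻¹) := by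
    rw [atPlace_upperTri, updAt_zero, hZ]
  have hr : RedG (nK S) (rationalMat γ * (kMat S h * (atPlace v M * Z))) (toResG S (m * h)) := by
    rw [hZ', ← map_mul, ← Dihedral.atPlace_comm _ (kMat_apply_of_good S h hv), ← mul_assoc, map_mul,
      map_mul, ← hZ']
    exact hred.mul (nK_ne_zero S) (redG_kMat S h)
  rw [phiCl, hx, ← phiAvg_congr hφ hr (redG_kMat S _), phiAvg_rational hφ, ← mul_assoc, hZ,
    phiAvg_central hφ]

theorem phiCl_hecke {l : ℂ} (π : EisInt) (hπ0 : (π : ℂ) ≠ 0) (p : ℕ)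
    (u : (EisInt ⧸ eisIdeal (3 * S.m))ˣ) (hπ : Prime π) (hp : p.Prime)
    (hnorm : normSq (π : ℂ) = p)
    (hu : (u : EisInt ⧸ eisIdeal (3 * S.m)) = Ideal.Quotient.mk _ π)
    (heig : IsEigenAt (placeOf S π hπ) φ l) (P : H3)
    (h : GL (Fin 2) (EisInt ⧸ eisIdeal (3 * S.m))) :
    (∑ b ∈ (Finset.range p).image (fun k : ℕ => some (k : EisInt)) ∪ {none},
      phiCl S φ (heckeRep π hπ0 b • P) (heckeRepMod (3 * S.m) u b * h)) =
      (Real.sqrt p : ℂ) * l * phiCl S φ P h := by
  obtain ⟨v, hv⟩ : ∃ v, v = placeOf S π hπ := ⟨_, rfl⟩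
  rw [← hv] at heig
  have hgen : v.asIdeal = Ideal.span {S.eK π} := by rw [hv]; rfl
  have hcop : ¬ π ∣ ((3 * S.m : ℕ) : EisInt) := fun hd => by
    refine hπ.not_isUnit ?_
    obtain ⟨r, hr⟩ := Ideal.Quotient.mk_surjective ((u⁻¹ : (EisInt ⧸ eisIdeal (3 * S.m))ˣ) :
      EisInt ⧸ eisIdeal (3 * S.m))
    have h1 : π * r - 1 ∈ eisIdeal (3 * S.m) := by
      rw [← Ideal.Quotient.eq, map_mul, map_one, ← hu, hr, Units.mul_inv]
    obtain ⟨c, hc⟩ := Ideal.mem_span_singleton'.mp h1
    obtain ⟨d, hd⟩ := hd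
    exact IsUnit.of_mul_eq_one (r - c * d) (by rw [hd] at hc; linear_combination -hc)
  have hve : nExp (nK S) v = 0 :=
    (nExp_eq_zero_iff (nK_ne_zero S) v).mpr fun hm => hcop ((nK_mem_placeOf S hπ).mp (hv ▸ hm))
  have hv3 : v ≠ v3 S := fun e => hcop ((nK_mem_placeOf S hπ).mp (by
    rw [← hv, e, nK, Nat.cast_mul]
    exact Ideal.mul_mem_right _ _ (by exact_mod_cast (three_mem_iff S _).mpr rfl)))
  have hπK : (S.eK π : S.K) ≠ 0 :=
    RingOfIntegers.coe_ne_zero_iff.mpr ((map_ne_zero_iff _ S.eK.injective).mpr hπ.ne_zero)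
  set c : S.Kˣ := Units.mk0 _ hπK with hc
  set u' : (ResK S)ˣ := Units.map (resEquiv S).toRingHom.toMonoidHom u with hu'
  have hu'val : (u' : ResK S) = Ideal.Quotient.mk _ (S.eK π) := by
    rw [hu', Units.coe_map]
    exact (congrArg (resEquiv S) hu).trans (resEquiv_mk S π)
  have hone : IsUnitId (1 : (Adf S.K)ˣ) := fun w => by rw [Units.val_one, adele_one_apply, map_one]
  have hπ' : S.eK π ≠ 0 := (map_ne_zero_iff _ S.eK.injective).mpr hπ.ne_zero
  have hinv : ideleAt v (piLoc v) * ideleAt v (piLoc v)⁻¹ = 1 := by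
    rw [← ideleAt_one v]
    exact (map_mul (ideleAtHom v) _ _).symm.trans (congrArg (ideleAt v) (mul_inv_cancel _))
  have hnone : phiCl S φ (heckeRep π hπ0 none • P) (heckeRepMod (3 * S.m) u none * h) =
      phiAvg S φ (fun _ => P) (kMat S h * atPlace v (upperTri 1 0 (piLoc v))) := by
    refine phiCl_smul_eq hφ (upperTri c 0 1) _ (fun i j => ?_) hve _ ?_ P
    · fin_cases i <;> fin_cases j <;> simp [heckeRep, upperTri, hc, S.emb_eK]
    · rw [atPlace_upperTri, updAt_zero, ideleAt_one, upperTri_mul, rationalMat_upperTri,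
        upperTri_mul,
        show toResG S (heckeRepMod (3 * S.m) u none) = upperTri u' 0 1 from toResG_diagMat S u]
      simp only [map_zero, map_one, one_mul, zero_mul, mul_zero, add_zero, hinv]
      exact redG_upperTri (nK_ne_zero S) (isUnitId_mul_inv hπ' hgen c rfl) hone
        (by rw [hu'val]; exact redA_mul_inv hπ' hgen hve c rfl) (redA_zero (nK_ne_zero S))
        (by simpa using redA_one (nK_ne_zero S))
  have hsome : ∀ b : EisInt,
      phiCl S φ (heckeRep π hπ0 (some b) • P) (heckeRepMod (3 * S.m) u (some b) * h) =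
        phiAvg S φ (fun _ => P) (kMat S h * atPlace v (upperTri (piLoc v)
          (algebraMap S.K (v.adicCompletion S.K) ((Function.surjInv
            (Ideal.Quotient.mk_surjective (I := v.asIdeal))
            (Ideal.Quotient.mk v.asIdeal (-(S.eK b))) : 𝓞 S.K) : S.K)) 1)) := by
    intro b
    set o : 𝓞 S.K := Function.surjInv (Ideal.Quotient.mk_surjective (I := v.asIdeal))
      (Ideal.Quotient.mk v.asIdeal (-(S.eK b))) with ho
    have hob : o + S.eK b ∈ v.asIdeal := by
      have h1 := Function.surjInv_eq (Ideal.Quotient.mk_surjective (I := v.asIdeal))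
        (Ideal.Quotient.mk v.asIdeal (-(S.eK b)))
      rw [← ho, Ideal.Quotient.eq, sub_neg_eq_add] at h1
      exact h1
    refine phiCl_smul_eq hφ (upperTri 1 (S.eK b : S.K) c) _ (fun i j => ?_) hve _ ?_ P
    · fin_cases i <;> fin_cases j <;> simp [heckeRep, upperTri, hc, S.emb_eK]
    · rw [atPlace_upperTri, ideleAt_one, upperTri_mul, rationalMat_upperTri, upperTri_mul,
        show toResG S (heckeRepMod (3 * S.m) u (some b)) =
          upperTri 1 (Ideal.Quotient.mk _ (S.eK b)) u' from by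
          refine Units.ext (Matrix.ext fun i j => ?_)
          fin_cases i <;> fin_cases j <;>
            simp [toResG, heckeRepMod, upperTri, Matrix.GeneralLinearGroup.map_apply, resEquiv_mk, hu']]
      simp only [map_one, one_mul, mul_zero, zero_add, hinv]
      refine redG_upperTri (nK_ne_zero S) hone (isUnitId_mul_inv hπ' hgen c rfl)
        (by simpa using redA_one (nK_ne_zero S)) ?_
        (by rw [hu'val]; exact redA_mul_inv hπ' hgen hve c rfl)
      refine redA_of_eq_off hve (fun w hw => ?_) ?_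
      · rw [Units.val_one, one_mul, adele_add_apply, adele_mul_apply, adele_mul_apply, adele_algebraMap_apply,
          updAt_of_ne _ _ _ hw, ideleAt_of_ne _ hw, Nat.cast_zero, mul_one, zero_add, mul_one]
      · rw [Units.val_one, one_mul, adele_add_apply, adele_mul_apply, adele_mul_apply, adele_algebraMap_apply,
          updAt_self, ideleAt_self, Units.val_inv_eq_inv_val]
        change Valued.v (loc v (o : S.K) * (loc v (pi v : S.K))⁻¹ +
          loc v (S.eK b : S.K) * (loc v (pi v : S.K))⁻¹) ≤ 1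
        rw [← add_mul, ← map_add, ← map_add (algebraMap (𝓞 S.K) S.K), map_mul, map_inv₀, valued_int,
          valued_uniformizer, ← div_eq_mul_inv, div_le_one₀ (zero_lt_iff.mpr exp_ne_zero)]
        exact (v.intValuation_le_pow_iff_mem _ 1).mpr (by rw [pow_one]; exact hob)
  have : Finite (𝓞 S.K ⧸ v.asIdeal) := Ideal.finiteQuotientOfFreeOfNeBot _ v.ne_bot
  let _ := Fintype.ofFinite (𝓞 S.K ⧸ v.asIdeal)
  have hN : Ideal.absNorm v.asIdeal = p := by
    have h1 : (Ideal.absNorm v.asIdeal : ℝ) = (p : ℝ) := by rw [hv, absNorm_placeOf, hnorm]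
    exact Nat.cast_injective h1
  have key := phiAvg_eigen hve hv3 heig (fun _ => P) (kMat S h)
  rw [heckeT, finsum_eq_sum_of_fintype, hN] at key
  refine Eq.trans ?_ key
  rw [Finset.sum_union (by simp), Finset.sum_singleton, hnone]
  congr 1
  rw [Finset.sum_image (fun a _ b _ hab => Nat.cast_injective (R := ℤ) (by
      have h1 := Option.some_inj.mp hab
      rw [Period.natCast_eq_eis, Period.natCast_eq_eis] at h1
      exact (Period.eis_inj h1).1)), Finset.sum_range]
  refine Fintype.sum_bijective (fun k : Fin p =>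
      Ideal.Quotient.mk v.asIdeal (-(S.eK (((k : ℕ) : EisInt))))) ?_ _ _ fun k => hsome _
  subst hv
  exact residues_bijective hπ hp hnorm

end Descended

end FermatAgent.LT

end
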