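import Mathlib
import Fermat.Agent.LT.Descent.Classical.Translate
import Fermat.Agent.LT.Descent.Classical.Frob
import Fermat.Agent.LT.Descent.Classical.Hecke

set_option autoImplicit false

/-!
# The Bianchi form of a descended form
-/

noncomputable section

open NumberField IsDedekindDomain MeasureTheory
open scoped Classical ComplexConjugate
open Complex (normSq)

namespace FermatAgent.LT

open Descended in
theorem exists_bianchiForm {S : Setup} {Ψ : S.PsiData} {T : Finset ℕ}
    {φ : XInf S.K → GAf S.K → ℂ} (hΨ : Ψ.Nontriv) (h : IsDescended S Ψ T φ) :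
    Nonempty (BianchiForm S) := by
  have : IsPrincipalIdealRing EisInt :=
    IsPrincipalIdealRing.of_surjective S.eK.symm.toRingHom S.eK.symm.surjective
  obtain ⟨W, hW⟩ := h.cusp.expansion
  have hφ := h.cusp
  have hrec := heckeRec h hΨ hW
  have h1 := dCoef_one_ne_zero h hΨ hW
  set N := dCoef S W 1 with hN
  have hcπ : ∀ π : EisInt, Prime π → IsCoprime π ((3 * S.m : ℕ) : EisInt) →
      dCoef S W π / N = (eigPi h π : ℂ) := fun π hπ hπn => by
    rw [hrec.rec_one' hπ hπn, mul_div_assoc, div_self h1, mul_one]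
  refine ⟨{
    φ := fun P g => phiCl S φ P g / N
    invariant := fun γ P g => by rw [phiCl_invariant hφ]
    scalar := fun a P g => by rw [phiCl_scalar hφ]
    continuous := fun g => (phiCl_continuous hφ g).div_const N
    bounded := ?_
    decay := fun g => ?_
    sph0 := fun g => ?_
    cuspidal := fun t ht g => by
      simp only [div_eq_mul_inv, integral_mul_const, phiCl_cuspidal hφ hW t ht g, zero_mul]
    c := fun x => dCoef S W x / N
    expansion := fun d P => ((phiCl_expansion hφ hW d P).div_const N).congr_fun fun x => by ring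
    c_zero := by rw [hrec.zero, zero_div]
    c_one := div_self h1
    c_real := hrec.normalised_real h1
    c_unit := fun u ν => by rw [hrec.unit]
    c_support := fun ν hν => by rw [hrec.supp ν hν, zero_div]
    c_mul := fun μ ν hμν => hrec.normalised_mul h1 hμν
    c_prime_pow := fun π k hπ hπn => ?_
    exc := T.biUnion Nat.primeFactors
    c_split := fun π p hπ hp hpe hpn hπp hnorm hsplit A hA σ hσ => ?_
    c_inert := fun p hp hpe hpn hp3 A hA σ hσ => ?_
    c_le_two := fun π p hπ hp hpe hpn hπp => ?_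
    hecke := fun π hπ0 p u hπ hp hnorm hu P g => ?_ }⟩
  · obtain ⟨C, hC⟩ := phiCl_bounded hφ
    exact ⟨C / ‖N‖, fun P g => by rw [norm_div]; exact div_le_div_of_nonneg_right (hC P g) (norm_nonneg N)⟩
  · obtain ⟨C, hC⟩ := phiCl_decay hφ hW g
    refine ⟨C / ‖N‖, fun P hP => ?_⟩
    rw [norm_div, div_right_comm]
    exact div_le_div_of_nonneg_right (hC P hP) (norm_nonneg N)
  · convert H3.IsSph0.const_mul (phiCl_sph0 hφ g) N⁻¹ using 1
    funext P
    ring
  · rw [hcπ π hπ hπn, show π ^ (k + 2) = π * (π * π ^ k) by ring, hrec.rec_two π hπ hπn,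
      show π * π ^ k = π ^ (k + 1) by ring, sub_div, mul_div_assoc]
  · rw [hcπ π hπ (not_dvd_level hp hpn hπp),
      eigPi_split h hπ hp hpe hpn hπp hnorm hsplit hA hσ, Complex.ofReal_intCast]
  · rw [hcπ _ (Period.prime_of_inert hp hp3) (not_dvd_level hp hpn dvd_rfl),
      eigPi_inert h hp hpe hpn hp3 hA hσ, Complex.ofReal_intCast]
  · rw [hcπ π hπ (not_dvd_level hp hpn hπp), Complex.norm_real, Real.norm_eq_abs]
    exact (eigVal_spec h hπ hp hpe hpn hπp).1
  · have hcop : IsCoprime π ((3 * S.m : ℕ) : EisInt) := by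
      obtain ⟨r, hr⟩ := Ideal.Quotient.mk_surjective ((u⁻¹ : (EisInt ⧸ eisIdeal (3 * S.m))ˣ) :
        EisInt ⧸ eisIdeal (3 * S.m))
      have hmem : π * r - 1 ∈ eisIdeal (3 * S.m) := by
        rw [← Ideal.Quotient.eq, map_mul, map_one, ← hu, hr, Units.mul_inv]
      obtain ⟨e, he⟩ := Ideal.mem_span_singleton'.mp hmem
      exact ⟨r, -e, by linear_combination -he⟩
    have hv : nK S ∉ (placeOf S π hπ).asIdeal := not_mem_bad hπ hcop
    have heig : IsEigenAt (placeOf S π hπ) φ (eigPi h π : ℂ) := by
      rw [eigPi, dif_pos hπ, eigVal, dif_neg hv]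
      exact (h.eigen _ hv).choose_spec.1
    rw [← Finset.sum_div, phiCl_hecke hφ π hπ0 p u hπ hp hnorm hu heig P g, hcπ π hπ hcop,
      mul_div_assoc]

end FermatAgent.LT

end
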